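import Fermat.Agent.S43.QF.Rep

/-!
# S43 / QF / Coeff : a function with coefficients in the inertia field is defined over an unramified number field

* `irreducible_q'`  : `q` is irreducible in `A ∩ K₀` for EVERY `K₀ ≤ L0 A` (no finiteness);
* `exists_field_L0` : `f ∈ FF N` with all coefficients in `L0 A`  ⟹  a number field `K₀ ≤ L0 A` and `W₀ ∈ F_{K₀}(N)` with `bc W₀ = f`;
* `exists_pkg_L0`   : the complete package (DVR, finite residue field, uniformiser `q`, Atkin-Lehner involution, `InvKq`) for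
  `f : Dm (M q) e` with coefficients in `L0 A`.
-/

set_option autoImplicit false
set_option linter.unusedSectionVars false

open AlgebraicCurve ModularCurve

namespace Fermat.Agent.S43.QF

open Fermat.Agent.ES Fermat.Agent.SS Fermat.Agent.SS.GM2
open Fermat.Agent.S44.Cover (LL gact bc)
open Fermat.Agent.Crux.GM (castS)
open Fermat.Agent.Crux (A0)

/-- `q` is irreducible in `A ∩ K₀`, `K₀ ≤ L0 A` arbitrary. -/
theorem irreducible_q' {q : ℕ} (hq : q.Prime) {A : ValuationSubring Qb}
    (hA : A.LiesOverPrime q) (K₀ : IntermediateField ℚ Qb)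
    (hK : K₀ ≤ Fermat.Agent.S36.Base.L0 A) : Irreducible ((q : ℕ) : A0 K₀ A) := by
  have hI : ∀ s ∈ A.inertiaSubgroupIn ℚ, ∀ x ∈ K₀, s x = x :=
    fun s hs x hx => Fermat.Agent.S36.Base.mem_L0_iff.mp (hK hx) s hs
  have hmax := maximalIdeal_A0 hq hA K₀ hI
  have hq0 : ((q : ℕ) : A0 K₀ A) ≠ 0 := by
    intro h
    have h1 : (((q : ℕ) : A0 K₀ A) : K₀) = 0 := by rw [h]; rfl
    have h2 : ((q : ℕ) : K₀) = 0 := by simpa using h1
    exact hq.ne_zero (by exact_mod_cast h2)
  have hprime : (Ideal.span {((q : ℕ) : A0 K₀ A)}).IsPrime := by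
    rw [← hmax]; infer_instance
  exact ((Ideal.span_singleton_prime hq0).mp hprime).irreducible

/-- the stabiliser of a function. -/
def stabF {N : ℕ} (f : FF N) : Subgroup GQ where
  carrier := {g | galF N g f = f}
  mul_mem' := by
    intro a b ha hb
    show galF N (a * b) f = f
    apply Subtype.ext
    have ha' := congrArg (fun y : FF N => (y : LL)) (show galF N a f = f from ha)
    have hb' := congrArg (fun y : FF N => (y : LL)) (show galF N b f = f from hb)
    simp only [coe_galF] at ha' hb' ⊢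
    ext n
    have h1 := congrArg (fun s : LL => s.coeff n) ha'
    have h2 := congrArg (fun s : LL => s.coeff n) hb'
    simp only [coeffMap_coeff] at h1 h2 ⊢
    show a (b _) = _
    have h2' : b ((f : LL).coeff n) = (f : LL).coeff n := h2
    have h1' : a ((f : LL).coeff n) = (f : LL).coeff n := h1
    rw [h2', h1']
  one_mem' := by
    show galF N 1 f = f
    apply Subtype.ext
    simp only [coe_galF]
    ext n
    simp only [coeffMap_coeff]
    rfl
  inv_mem' := by
    intro a ha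
    show galF N a⁻¹ f = f
    apply Subtype.ext
    have ha' := congrArg (fun y : FF N => (y : LL)) (show galF N a f = f from ha)
    simp only [coe_galF] at ha' ⊢
    ext n
    have h1 := congrArg (fun s : LL => s.coeff n) ha'
    simp only [coeffMap_coeff] at h1 ⊢
    have h1' : a ((f : LL).coeff n) = (f : LL).coeff n := h1
    show a⁻¹ ((f : LL).coeff n) = _
    conv_lhs => rw [← h1']
    show (a⁻¹ * a) _ = _
    rw [inv_mul_cancel]; rfl

/-- **a function over the inertia field is defined over an unramified number field.** -/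
theorem exists_field_L0 {q : ℕ} (hq : q.Prime) (N : ℕ) [NeZero N] {A : ValuationSubring Qb}
    (hA : A.LiesOverPrime q) (f : FF N)
    (hf : ∀ n : ℤ, (f : LaurentSeries Qb).coeff n ∈ Fermat.Agent.S36.Base.L0 A) :
    ∃ (K₀ : IntermediateField ℚ Qb) (_ : NumberField K₀),
      IsDiscreteValuationRing (A0 K₀ A) ∧ Finite (IsLocalRing.ResidueField (A0 K₀ A)) ∧
      Irreducible (q : A0 K₀ A) ∧ K₀ ≤ Fermat.Agent.S36.Base.L0 A ∧
      ∃ W₀ : LaurentSeries K₀, W₀ ∈ modularFunctionFieldFullC K₀ N ∧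
        coeffMap (algebraMap K₀ Qb) W₀ = (f : LaurentSeries Qb) := by
  obtain ⟨L, hL, hLf⟩ := exists_finite_level N f
  obtain ⟨K₀, iN, iD, iF, hirr, hG, -, hI⟩ := exists_field hq hA (stabF f)
    ⟨L, hL, fun g hg => hLf g ((IntermediateField.mem_fixingSubgroup_iff L g).mp hg)⟩
    (by
      intro s hs
      show galF N s f = f
      apply Subtype.ext
      simp only [coe_galF]
      ext n
      simp only [coeffMap_coeff]
      exact Fermat.Agent.S36.Base.mem_L0_iff.mp (hf n) s hs)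
  obtain ⟨W₀, hW₀⟩ := Fermat.Agent.S44.Cover.exists_of_fixed K₀ (f : LL)
    (fun g hg => congrArg (fun y : FF N => (y : LL)) (show galF N g f = f from hG g hg))
  refine ⟨K₀, iN, iD, iF, hirr,
    fun x hx => Fermat.Agent.S36.Base.mem_L0_iff.mpr fun s hs => hI s hs x hx, W₀, ?_, hW₀⟩
  refine S33.desc K₀ N _ ?_
  rw [show coeffMap (algebraMap K₀ Qb) W₀ = (f : LL) from hW₀]
  exact f.2

/-- **the complete package** for `f : Dm (M q) e` with coefficients in the inertia field. -/
theorem exists_pkg_L0 {M q e : ℕ} [NeZero M] [NeZero q] (hq : q.Prime) (he : 0 < e)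
    {A : ValuationSubring Qb} (hA : A.LiesOverPrime q)
    (w : FF (M * q) →ₐ[Qb] FF (M * q)) (hw : IsAL M q w) (u : Dm (M * q) e)
    (hu : ∀ n : ℤ, ((((u : (FF (M * q))ˣ) : FF (M * q)) : LaurentSeries Qb)).coeff n
      ∈ Fermat.Agent.S36.Base.L0 A) :
    ∃ (K₀ : IntermediateField ℚ Qb) (_ : NumberField K₀)
      (_ : IsDiscreteValuationRing (A0 K₀ A)) (_ : Finite (IsLocalRing.ResidueField (A0 K₀ A)))
      (wK : modularFunctionFieldFullC K₀ (M * q) →ₐ[K₀] modularFunctionFieldFullC K₀ (M * q))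
      (W₀ : modularFunctionFieldFullC K₀ (M * q)),
      Irreducible (q : A0 K₀ A) ∧ K₀ ≤ Fermat.Agent.S36.Base.L0 A ∧
      IsALK K₀ M q wK ∧
      (∀ (f : modularFunctionFieldFullC K₀ (M * q)) (f' : FF (M * q)),
        (f' : LL) = bc K₀ (f : LaurentSeries K₀) →
        ((w f' : FF (M * q)) : LL) = bc K₀ ((wK f : modularFunctionFieldFullC K₀ (M * q)) :
          LaurentSeries K₀)) ∧
      bc K₀ (W₀ : LaurentSeries K₀) = (((u : (FF (M * q))ˣ) : FF (M * q)) : LL) ∧
      InvKq K₀ (M * q) e (castS K₀ (Xh M q)) (W₀ : LaurentSeries K₀) ∧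
      InvKq K₀ (M * q) e (castS K₀ (Xh M q))⁻¹ (W₀ : LaurentSeries K₀) := by
  have hN : NeZero (M * q) := ⟨Nat.mul_ne_zero (NeZero.ne M) (NeZero.ne q)⟩
  obtain ⟨K₀, iN, iD, iF, hirr, hK, W₀, hW₀m, hW₀⟩ :=
    exists_field_L0 hq (M * q) hA ((u : (FF (M * q))ˣ) : FF (M * q)) hu
  obtain ⟨wK, hwK, hwK'⟩ := exists_wK M q hq w hw K₀
  obtain ⟨h0, hinf⟩ := invKq_both he K₀ u W₀ hW₀
  exact ⟨K₀, iN, iD, iF, wK, ⟨W₀, hW₀m⟩, hirr, hK, hwK, hwK', hW₀, h0, hinf⟩

end Fermat.Agent.S43.QF
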