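import Fermat.Agent.S43.QF.GU
import Fermat.Agent.S36.Base.Descent

/-!
# S43 / QF / Slope : an inertia-invariant class at a non-Eisenstein `θ` is represented by a VERTICAL UNIT over the inertia field

`N = M q`, `A` over `q`, `w` the Atkin-Lehner involution, `ℓ ∤ N` a prime with `a - ℓ - 1` prime to the exponent `e`.
`z ∈ Kum N e` fixed by the inertia group `I_A`, killed by a power of `D = T_ℓ - a`.
Then `z = (T_ℓ - ℓ - 1) z₁` with `z₁` fixed by `I_A`; if `f₁` is an `I_A`-fixed representative of `z₁`, then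
`fz := T_ℓ f₁ / f₁ ^ (ℓ + 1)` represents `z`, is fixed by `I_A`, and is a Gauss unit at `v_∞` and at `v_0 = v_∞ ∘ w`
(shortcut of helper16, board #3717).   The commutation `w T_ℓ = T_ℓ w` on FUNCTIONS is a hypothesis here (`QF/WT.lean`).
-/

set_option autoImplicit false
set_option linter.unusedSectionVars false

open AlgebraicCurve ModularCurve

namespace Fermat.Agent.S43.QF

open Fermat.Agent.ES Fermat.Agent.SS
open Fermat.Agent.S44.Cover (LL)

noncomputable section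

/-- abstract: `D` nilpotent on `z`, `u` a unit: `z ∈ (D + u) (invariants)`. -/
theorem exists_preimage {V : Type*} [AddCommGroup V] (e : ℕ) (he : ∀ x : V, e • x = 0)
    (D : V →+ V) (P : V → Prop) (hP0 : P 0) (hPD : ∀ x, P x → P (D x))
    (hPsub : ∀ x y, P x → P y → P (x - y)) (hPsmul : ∀ (k : ℤ) x, P x → P (k • x))
    (u : ℤ) (hu : IsCoprime u (e : ℤ)) :
    ∀ (n : ℕ) (z : V), P z → D^[n] z = 0 → ∃ z₁, P z₁ ∧ D z₁ + u • z₁ = z := by
  obtain ⟨u', v, huv⟩ := hu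
  have key : ∀ x : V, u' • u • x = x := by
    intro x
    have h1 : (u' * u + v * e) • x = x := by rw [huv, one_smul]
    rw [add_smul, mul_smul, mul_smul, natCast_zsmul, he, smul_zero, add_zero] at h1
    exact h1
  intro n
  induction n with
  | zero =>
    intro z _ hz
    rw [Function.iterate_zero, id] at hz
    exact ⟨0, hP0, by rw [hz, map_zero, smul_zero, add_zero]⟩
  | succ n ih =>
    intro z hPz hz
    rw [Function.iterate_succ_apply] at hz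
    obtain ⟨y, hPy, hy⟩ := ih (D z) (hPD z hPz) hz
    refine ⟨u' • (z - y), hPsmul _ _ (hPsub _ _ hPz hPy), ?_⟩
    have h2 : D (z - y) + u • (z - y) = u • z := by
      rw [map_sub, smul_sub]
      have : D z = D y + u • y := hy.symm
      rw [this]
      abel
    rw [map_zsmul, smul_comm u u', ← smul_add, h2, key]

variable {M q e ℓ : ℕ} [NeZero M] [NeZero q] [NeZero ℓ] {A : ValuationSubring Qb}
  {w : FF (M * q) →ₐ[Qb] FF (M * q)}

/-- **the vertical unit.** -/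
theorem exists_vertical_unit (hq : q.Prime) (hA : A.LiesOverPrime q) (hw : IsAL M q w)
    (he : e ≠ 0) (hℓ : ℓ.Prime) (hℓN : ¬ ℓ ∣ M * q)
    (hWT : ∀ f : FF (M * q), w (heckeF (M * q) ℓ hℓ hℓN f) = heckeF (M * q) ℓ hℓ hℓN (w f))
    (a : ℤ) (hne : IsCoprime (a - ℓ - 1) (e : ℤ))
    (D : Kum (M * q) e →+ Kum (M * q) e)
    (hD : ∀ x, D x = heckeKum (M * q) ℓ hℓ hℓN e x - a • x)
    (z : Kum (M * q) e) (hzI : ∀ s ∈ A.inertiaSubgroupIn ℚ, galKum (M * q) e s z = z)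
    (hz : ∃ n : ℕ, D^[n] z = 0) :
    ∃ fz : Dm (M * q) e, Kum.mk fz = z ∧
      (∀ s ∈ A.inertiaSubgroupIn ℚ,
        galF (M * q) s ((fz : (FF (M * q))ˣ) : FF (M * q)) = ((fz : (FF (M * q))ˣ) : FF (M * q))) ∧
      (∃ r : LaurentSeries (kA A), r ≠ 0 ∧
        RedTo A (((fz : (FF (M * q))ˣ) : FF (M * q)) : LL) r) ∧
      (∃ r : LaurentSeries (kA A), r ≠ 0 ∧
        RedTo A ((w ((fz : (FF (M * q))ˣ) : FF (M * q)) : FF (M * q)) : LL) r) := by
  have hN : NeZero (M * q) := ⟨Nat.mul_ne_zero (NeZero.ne M) (NeZero.ne q)⟩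
  have hℓq : ℓ ≠ q := fun h => hℓN (h ▸ Dvd.intro_left M rfl)
  obtain ⟨n, hn⟩ := hz
  -- `z = (T - ℓ - 1) z₁`
  obtain ⟨z₁, hz₁I, hz₁⟩ := exists_preimage e (fun x : Kum (M * q) e => Kum.nsmul_eq_zero x) D
    (fun x => ∀ s ∈ A.inertiaSubgroupIn ℚ, galKum (M * q) e s x = x)
    (fun s _ => map_zero _)
    (fun x hx s hs => by
      rw [hD, map_sub, map_zsmul, galKum_heckeKum, hx s hs])
    (fun x y hx hy s hs => by rw [map_sub, hx s hs, hy s hs])
    (fun k x hx s hs => by rw [map_zsmul, hx s hs])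
    (a - ℓ - 1) hne n z hzI hn
  obtain ⟨f₁, hf₁, hfix⟩ := Fermat.Agent.S36.Base.exists_rep_fixed (M * q) e he
    (A.inertiaSubgroupIn ℚ) z₁ hz₁I
  set φ : FF (M * q) := ((f₁ : (FF (M * q))ˣ) : FF (M * q)) with hφ
  have hφ0 : φ ≠ 0 := (f₁ : (FF (M * q))ˣ).ne_zero
  have hφI : IFix A φ := hfix
  have hwφ0 : w φ ≠ 0 := by
    rw [Ne, map_eq_zero]; exact hφ0
  have hwφI : IFix A (w φ) := fun s hs => by rw [hw.galF_comm hq, hfix s hs]
  obtain ⟨n₁, hn₁⟩ := exists_GU hq hA hφ0 hφI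
  obtain ⟨n₂, hn₂⟩ := exists_GU hq hA hwφ0 hwφI
  -- the representative
  let T₁ : Dm (M * q) e := ⟨heckeU (M * q) ℓ hℓ hℓN f₁, heckeU_mem_Dm (M * q) ℓ hℓ hℓN f₁.2⟩
  let fz : Dm (M * q) e := T₁ * (f₁ ^ (ℓ + 1))⁻¹
  have hcoe : ((fz : (FF (M * q))ˣ) : FF (M * q)) = heckeF (M * q) ℓ hℓ hℓN φ * (φ ^ (ℓ + 1))⁻¹ := by
    simp [fz, T₁, hφ]
  refine ⟨fz, ?_, ?_, ?_, ?_⟩
  · show Kum.mk (T₁ * (f₁ ^ (ℓ + 1))⁻¹) = z
    rw [Kum.mk_mul, Kum.mk_inv, Kum.mk_pow, ← heckeKum_mk, hf₁, ← hz₁, hD]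
    have h1 : (a - (ℓ : ℤ) - 1) • z₁ = a • z₁ - (ℓ + 1) • z₁ := by
      rw [← natCast_zsmul, ← sub_smul]
      congr 1
      push_cast
      ring
    rw [h1]
    abel
  · intro s hs
    rw [hcoe, map_mul, map_inv₀, map_pow, hfix s hs]
    congr 1
    have h2 := galU_heckeU (M * q) ℓ hℓ hℓN s (f₁ : (FF (M * q))ˣ)
    have h3 := congrArg (fun u : (FF (M * q))ˣ => (u : FF (M * q))) h2
    simp only [coe_galU, coe_heckeU] at h3
    rw [h3, hfix s hs]
  · rw [← GU.zero_iff (q := q), hcoe]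
    have h1 := (hn₁.heckeSer hq hA hℓ hℓq).mul hq.ne_zero (hn₁.pow hq.ne_zero (ℓ + 1)).inv
    refine h1.congr rfl ?_
    push_cast
    ring
  · rw [← GU.zero_iff (q := q), hcoe, map_mul, map_inv₀, map_pow, hWT]
    have h1 := (hn₂.heckeSer hq hA hℓ hℓq).mul hq.ne_zero (hn₂.pow hq.ne_zero (ℓ + 1)).inv
    refine h1.congr rfl ?_
    push_cast
    ring

end

end Fermat.Agent.S43.QF
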