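import Fermat.Agent.SS.Formal.AL
import Fermat.Agent.ES.B.HeckeNorm
import Fermat.Agent.ES.B.Comm
import Fermat.Agent.ES.B.Module

/-!
# S43 / QF / WT : the Atkin-Lehner involution `w_q` commutes with the multiplicative Hecke operator `T_l` on FUNCTIONS of `X₀(M q)`
(leaf (W-T) of helper18; `heckeF = Norm_α ∘ β`, and `w_q` of level `M l q` extends `w_q` of level `M q` along both `α_l`, `β_l`).
-/

set_option autoImplicit false

open AlgebraicCurve ModularCurve

namespace Fermat.Agent.S43.QF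

open Fermat.Agent.ES Fermat.Agent.SS

noncomputable section

/-- the Atkin-Lehner involution at `q` of a level `N2 = M l q`, characterised on series. -/
theorem WT_exists_w2 {M q l : ℕ} [NeZero M] [NeZero q] [NeZero l] (hq : q.Prime)
    (hqMl : ¬ q ∣ M * l) (N2 : ℕ) (hN2 : N2 = M * l * q) :
    ∃ w2 : FF N2 →ₐ[Qb] FF N2, (∀ y, w2 (w2 y) = y) ∧
      (∀ (f' : FF (M * l)) (y : FF N2), (y : LaurentSeries Qb) = (f' : LaurentSeries Qb) →
        ((w2 y : FF N2) : LaurentSeries Qb) = Vq Qb q (f' : LaurentSeries Qb)) ∧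
      (∀ (f' : FF (M * l)) (y : FF N2), (y : LaurentSeries Qb) = Vq Qb q (f' : LaurentSeries Qb) →
        ((w2 y : FF N2) : LaurentSeries Qb) = (f' : LaurentSeries Qb)) := by
  subst hN2
  obtain ⟨w', hw'⟩ := exists_isAL (M * l) q hq hqMl
  refine ⟨w', hw'.invol hq, ?_, ?_⟩
  · intro f' y hy
    have : y = heckeAlphaBar Qb (M * l) q f' := Subtype.ext (by rw [hy, coe_heckeAlphaBar])
    rw [this, hw'.alpha, coe_heckeBetaBar]
  · intro f' y hy
    have : y = heckeBetaBar Qb (M * l) q f' := Subtype.ext (by rw [hy, coe_heckeBetaBar])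
    rw [this, hw'.beta, coe_heckeAlphaBar]

theorem w_heckeF {M q l : ℕ} [NeZero M] [NeZero q] [NeZero l] (hq : q.Prime) (hqM : ¬ q ∣ M)
    {w : FF (M * q) →ₐ[Qb] FF (M * q)} (hw : SS.IsAL M q w) (hl : l.Prime) (hlN : ¬ l ∣ M * q)
    (f : FF (M * q)) :
    w (ES.heckeF (M * q) l hl hlN f) = ES.heckeF (M * q) l hl hlN (w f) := by
  have hql : q ≠ l := fun h => hlN (h ▸ dvd_mul_left q M)
  have hqMl : ¬ q ∣ M * l := by
    intro hd
    rcases (Nat.Prime.dvd_mul hq).mp hd with h1 | h1
    · exact hqM h1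
    · exact hql ((Nat.prime_dvd_prime_iff_eq hq hl).mp h1)
  obtain ⟨w2, hinv, h1, h2⟩ := WT_exists_w2 (M := M) (q := q) (l := l) hq hqMl (M * q * l) (by ring)
  have hA : ∀ x : FF (M * q), w2 (heckeAlphaBar Qb (M * q) l x) = heckeAlphaBar Qb (M * q) l (w x) := by
    intro x
    refine induction_gen hq (fun x => w2 (heckeAlphaBar Qb (M * q) l x)
      = heckeAlphaBar Qb (M * q) l (w x)) ?_ ?_ ?_ ?_ ?_ ?_ x
    · intro c
      rw [AlgHom.commutes, AlgHom.commutes, AlgHom.commutes, AlgHom.commutes]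
    · intro f
      apply Subtype.ext
      rw [h1 (heckeAlphaBar Qb M l f) _ (by rw [coe_heckeAlphaBar, coe_heckeAlphaBar, coe_heckeAlphaBar]),
        hw.alpha]
      simp only [coe_heckeAlphaBar, coe_heckeBetaBar]
    · intro f
      apply Subtype.ext
      rw [h2 (heckeAlphaBar Qb M l f) _ (by rw [coe_heckeAlphaBar, coe_heckeBetaBar, coe_heckeAlphaBar]),
        hw.beta]
      simp only [coe_heckeAlphaBar, coe_heckeBetaBar]
    · intro x y hx hy
      rw [map_add, map_add, map_add, map_add, hx, hy]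
    · intro x y hx hy
      rw [map_mul, map_mul, map_mul, map_mul, hx, hy]
    · intro x hx
      rw [map_inv₀, map_inv₀, map_inv₀, map_inv₀, hx]
  have hB : ∀ x : FF (M * q), w2 (heckeBetaBar Qb (M * q) l x) = heckeBetaBar Qb (M * q) l (w x) := by
    intro x
    refine induction_gen hq (fun x => w2 (heckeBetaBar Qb (M * q) l x)
      = heckeBetaBar Qb (M * q) l (w x)) ?_ ?_ ?_ ?_ ?_ ?_ x
    · intro c
      rw [AlgHom.commutes, AlgHom.commutes, AlgHom.commutes, AlgHom.commutes]
    · intro f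
      apply Subtype.ext
      rw [h1 (heckeBetaBar Qb M l f) _ (by rw [coe_heckeBetaBar, coe_heckeAlphaBar, coe_heckeBetaBar]),
        hw.alpha]
      simp only [coe_heckeAlphaBar, coe_heckeBetaBar]
      exact Comm.Vq_Vq_comm q l _
    · intro f
      apply Subtype.ext
      rw [h2 (heckeBetaBar Qb M l f) _ (by
          rw [coe_heckeBetaBar, coe_heckeBetaBar, coe_heckeBetaBar]; exact Comm.Vq_Vq_comm l q _),
        hw.beta]
      simp only [coe_heckeAlphaBar, coe_heckeBetaBar]
    · intro x y hx hy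
      rw [map_add, map_add, map_add, map_add, hx, hy]
    · intro x y hx hy
      rw [map_mul, map_mul, map_mul, map_mul, hx, hy]
    · intro x hx
      rw [map_inv₀, map_inv₀, map_inv₀, map_inv₀, hx]
  have hF : ∀ g : FF (M * q), ES.heckeF (M * q) l hl hlN g = heckeNorm (M * q) l g := fun g =>
    Subtype.ext (by rw [coe_heckeF, heckeSer_eq_heckeNorm (M * q) l hl hlN])
  rw [hF, hF]
  let e1 : FF (M * q) ≃+* FF (M * q) :=
    RingEquiv.ofRingHom (w : FF (M * q) →+* FF (M * q)) (w : FF (M * q) →+* FF (M * q))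
      (RingHom.ext fun x => hw.invol hq x) (RingHom.ext fun x => hw.invol hq x)
  let e2 : FF (M * q * l) ≃+* FF (M * q * l) :=
    RingEquiv.ofRingHom (w2 : FF (M * q * l) →+* FF (M * q * l)) (w2 : FF (M * q * l) →+* FF (M * q * l))
      (RingHom.ext fun x => hinv x) (RingHom.ext fun x => hinv x)
  let _ := algebraAlong (heckeAlphaBar Qb (M * q) l)
  have key := Algebra.norm_eq_of_equiv_equiv (A₁ := FF (M * q)) (B₁ := FF (M * q * l))
    (A₂ := FF (M * q)) (B₂ := FF (M * q * l)) e1 e2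
    (RingHom.ext fun x => (hA x).symm) (heckeBetaBar Qb (M * q) l f)
  have key2 : e1 (Algebra.norm (FF (M * q)) (heckeBetaBar Qb (M * q) l f))
      = Algebra.norm (FF (M * q)) (e2 (heckeBetaBar Qb (M * q) l f)) := by
    rw [key, RingEquiv.apply_symm_apply]
  have he2 : e2 (heckeBetaBar Qb (M * q) l f) = heckeBetaBar Qb (M * q) l (w f) := hB f
  rw [he2] at key2
  exact key2

end

end Fermat.Agent.S43.QF
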