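import Fermat.Agent.S43.I.InvTor
import Fermat.Agent.S36.Base.DescentL0
import Fermat.Agent.S44.Eis.Red

/-!
# S43 / QF / Slope2 : a representative which is a Gauss unit at both components

`z ∈ Inv` (inertia invariant, in the `θ`-part), `ℓ` a good prime with `a ℓ - (ℓ + 1)` prime to the exponent `e`.
Then `T_ℓ - (ℓ + 1)` is bijective on `Inv`, `z = (T_ℓ - (ℓ + 1)) z₁`, and for an inertia-fixed representative `f₁` of `z₁`
the function `fz = T_ℓ f₁ / f₁ ^ (ℓ + 1)` represents `z`, is inertia-fixed, and both `fz` and `w fz` are Gauss units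
(the constants cancel).  The commutation of `w` with `T_ℓ` on functions is a hypothesis (`hWT`).
-/

set_option autoImplicit false

open AlgebraicCurve ModularCurve

namespace Fermat.Agent.S43.QF.S2

section Abstract

theorem exists_preimage {X : Type*} [AddCommGroup X] (D : Module.End ℤ X) (u : ℤ) (e : ℕ)
    (hu : IsCoprime u (e : ℤ)) (z : X) (he : e • z = 0) (n : ℕ) (hn : (D ^ n) z = 0) :
    ∃ P : Module.End ℤ X, (∀ g : Module.End ℤ X, Commute g D → Commute g P) ∧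
      D (P z) + u • P z = z := by
  set y : Module.End ℤ X := (-u) • 1 with hy
  have hc : Commute D y := (Commute.one_right D).smul_right _
  set Sm : Module.End ℤ X := ∑ i ∈ Finset.range n, D ^ i * y ^ (n - 1 - i) with hSm
  have h1 : (D - y) * Sm = D ^ n - y ^ n := hc.mul_geom_sum₂ n
  have hyn : y ^ n = ((-u) ^ n) • (1 : Module.End ℤ X) := by rw [hy, smul_pow, one_pow]
  have hcop : IsCoprime (-(-u) ^ n) (e : ℤ) := (hu.neg_left.pow_left).neg_left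
  obtain ⟨v, b, hvb⟩ := hcop
  refine ⟨v • Sm, ?_, ?_⟩
  · intro g hg
    refine Commute.smul_right (Commute.sum_right _ _ _ fun i _ => (hg.pow_right i).mul_right ?_) v
    exact ((Commute.one_right g).smul_right _).pow_right _
  · have h2 := congrArg (fun f : Module.End ℤ X => f z) h1
    have h3 : D (Sm z) + u • Sm z = -((-u) ^ n • z) := by
      have e1 : ((D - y) * Sm) z = D (Sm z) + u • Sm z := by
        rw [Module.End.mul_apply, LinearMap.sub_apply, hy, LinearMap.smul_apply,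
          Module.End.one_apply, neg_smul, sub_neg_eq_add]
      have e2 : (D ^ n - y ^ n) z = -((-u) ^ n • z) := by
        rw [LinearMap.sub_apply, hn, hyn, LinearMap.smul_apply, Module.End.one_apply, zero_sub]
      rw [← e1, ← e2]
      exact h2
    have h4 : D ((v • Sm) z) + u • (v • Sm) z = v • (D (Sm z) + u • Sm z) := by
      rw [LinearMap.smul_apply, map_zsmul, smul_add, smul_comm u v]
    rw [h4, h3, ← neg_smul, smul_smul]
    have h5 : v * -(-u) ^ n = 1 - b * (e : ℤ) := by linarith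
    rw [h5, sub_smul, one_smul, mul_smul, natCast_zsmul, he, smul_zero, sub_zero]

end Abstract

open Fermat.Agent.ES Fermat.Agent.SS Fermat.Agent.S33 Fermat.Agent.S43.I

variable {M q e : ℕ} [NeZero M] [NeZero q] {A : ValuationSubring Qb}

/-- `T_ℓ - (ℓ + 1)` is onto on the inertia invariants of the `θ`-part. -/
theorem exists_z1 {N : ℕ} [NeZero N] {S : Finset ℕ} {hNS : ∀ r : ℕ, r.Prime → r ∣ N → r ∈ S}
    {a : ℕ → ℤ} (ℓ : GP S) (hℓ : IsCoprime (a ℓ.1 - (ℓ.1 + 1)) (e : ℤ)) {z : Kum N e}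
    (hz : z ∈ Inv N hNS a A e) :
    ∃ z₁ : Kum N e, (∀ s ∈ A.inertiaSubgroupIn ℚ, galKum N e s z₁ = z₁) ∧
      heckeT N e (ℓ.good hNS) z₁ - ((ℓ.1 : ℤ) + 1) • z₁ = z := by
  obtain ⟨n, hn⟩ := hz.1 ℓ
  obtain ⟨P, hP, hPz⟩ := exists_preimage (TT N e hNS a ℓ) _ e hℓ z (Kum.nsmul_eq_zero z) n hn
  refine ⟨P z, ?_, ?_⟩
  · intro s hs
    have hc : Commute (galKum N e s).toIntLinearMap (TT N e hNS a ℓ) :=
      LinearMap.ext fun x => gal_TT s ℓ x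
    have := congrArg (fun f : Module.End ℤ (Kum N e) => f z) (hP _ hc).eq
    have h2 : galKum N e s (P z) = P (galKum N e s z) := this
    rw [h2, hz.2 s hs]
  · rw [TT_apply, sub_smul] at hPz
    generalize P z = Z at hPz ⊢
    rw [← hPz]
    abel

omit [NeZero q] in
/-- the constants cancel in `T_ℓ x / x ^ (ℓ + 1)`. -/
theorem redTo_quot (hq : q.Prime) (hA : A.LiesOverPrime q) {ℓ : ℕ} [NeZero ℓ] (hℓ : ℓ.Prime)
    (hℓq : ℓ ≠ q) {x : LaurentSeries Qb} {r : LaurentSeries (kA A)} (h : RedUp A x r)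
    (hr : r ≠ 0) :
    RedTo A (heckeSer ℓ x * (x ^ (ℓ + 1))⁻¹) (heckeSer ℓ r * (r ^ (ℓ + 1))⁻¹) := by
  obtain ⟨c, hc, h⟩ := h
  obtain ⟨ζ, hζ⟩ := Fermat.Agent.ES.exists_primitiveRoot_Qb ℓ
  have h1 := Fermat.Agent.S44.Eis.RedTo.heckeSer hq hA hℓ hℓq h
  have h2 := (h.pow (ℓ + 1)).inv (pow_ne_zero _ hr)
  refine (h1.mul h2).congr ?_ rfl
  rw [Fermat.Agent.ES.heckeSer_mul ℓ hζ, Fermat.Agent.S44.Eis.heckeSer_cst, mul_pow, mul_inv]
  have hc' : cst (c ^ (ℓ + 1)) = cst c ^ (ℓ + 1) := by rw [cst, cst, map_pow]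
  have hc0 : cst c ^ (ℓ + 1) ≠ 0 := by
    refine pow_ne_zero _ ?_
    rw [cst]
    exact (map_ne_zero _).2 hc
  rw [hc']
  field_simp

/-- **(L-A)**, by the shortcut. -/
theorem exists_unit_rep (hq : q.Prime) (he : e ≠ 0) (hA : A.LiesOverPrime q)
    (w : FF (M * q) →ₐ[Qb] FF (M * q)) {S : Finset ℕ}
    {hNS : ∀ r : ℕ, r.Prime → r ∣ M * q → r ∈ S} {a : ℕ → ℤ}
    (ℓ : ℕ) [NeZero ℓ] (hℓ : ℓ.Prime) (hℓN : ¬ ℓ ∣ M * q) (hℓS : ℓ ∉ S)
    (hcop : IsCoprime (a ℓ - (ℓ + 1)) (e : ℤ))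
    (hWT : ∀ f : FF (M * q), w (heckeF (M * q) ℓ hℓ hℓN f) = heckeF (M * q) ℓ hℓ hℓN (w f))
    {z : Kum (M * q) e} (hz : z ∈ Inv (M * q) hNS a A e) :
    ∃ fz : Dm (M * q) e, Kum.mk fz = z ∧
      (∀ n : ℤ, ((((fz : (FF (M * q))ˣ) : FF (M * q)) : LaurentSeries Qb)).coeff n
        ∈ Fermat.Agent.S36.Base.L0 A) ∧
      (∀ s ∈ A.inertiaSubgroupIn ℚ,
        galF (M * q) s ((fz : (FF (M * q))ˣ) : FF (M * q)) = ((fz : (FF (M * q))ˣ) : FF (M * q))) ∧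
      ∃ φ₁ φ₂ : LaurentSeries (kA A), φ₁ ≠ 0 ∧ φ₂ ≠ 0 ∧
        RedTo A (((fz : (FF (M * q))ˣ) : FF (M * q)) : LaurentSeries Qb) φ₁ ∧
        RedTo A ((w ((fz : (FF (M * q))ˣ) : FF (M * q)) : FF (M * q)) : LaurentSeries Qb) φ₂ := by
  have hℓq : ℓ ≠ q := by
    rintro rfl
    exact hℓN (Dvd.intro_left M rfl)
  obtain ⟨z₁, hz₁, hzz⟩ := exists_z1 (⟨ℓ, hℓ, hℓS⟩ : GP S) hcop hz
  obtain ⟨f₁, rfl, hfix⟩ :=
    Fermat.Agent.S36.Base.exists_rep_fixed (M * q) e he (A.inertiaSubgroupIn ℚ) z₁ hz₁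
  obtain ⟨ξ, hξ⟩ := Fermat.Agent.S44.Eis.exists_primitiveRoot_kA hq hA hℓ hℓq
  let Tf : Dm (M * q) e := ⟨heckeU (M * q) ℓ hℓ hℓN f₁, heckeU_mem_Dm (M * q) ℓ hℓ hℓN f₁.2⟩
  let fz : Dm (M * q) e := Tf * (f₁ ^ (ℓ + 1))⁻¹
  have hval : ((fz : (FF (M * q))ˣ) : FF (M * q))
      = heckeF (M * q) ℓ hℓ hℓN ((f₁ : (FF (M * q))ˣ) : FF (M * q))
        * (((f₁ : (FF (M * q))ˣ) : FF (M * q)) ^ (ℓ + 1))⁻¹ := by
    simp only [fz, Tf, Subgroup.coe_mul, Subgroup.coe_inv, Subgroup.coe_pow, Units.val_mul,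
      Units.val_inv_eq_inv_val, Units.val_pow_eq_pow_val, coe_heckeU]
  have hf0 : ((f₁ : (FF (M * q))ˣ) : FF (M * q)) ≠ 0 := (f₁ : (FF (M * q))ˣ).ne_zero
  have hfixz : ∀ s ∈ A.inertiaSubgroupIn ℚ,
      galF (M * q) s ((fz : (FF (M * q))ˣ) : FF (M * q)) = ((fz : (FF (M * q))ˣ) : FF (M * q)) := by
    intro s hs
    have h1 := congrArg (fun t : (FF (M * q))ˣ => (t : FF (M * q)))
      (galU_heckeU (M * q) ℓ hℓ hℓN s (f₁ : (FF (M * q))ˣ))
    have h2 : galF (M * q) s (heckeF (M * q) ℓ hℓ hℓN ((f₁ : (FF (M * q))ˣ) : FF (M * q)))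
        = heckeF (M * q) ℓ hℓ hℓN (galF (M * q) s ((f₁ : (FF (M * q))ˣ) : FF (M * q))) := h1
    rw [hval, map_mul, map_inv₀, map_pow, h2, hfix s hs]
  refine ⟨fz, ?_, ?_, hfixz, ?_⟩
  · rw [← hzz]
    show Kum.mk Tf + Kum.mk ((f₁ ^ (ℓ + 1))⁻¹) = _
    have e1 : Kum.mk ((f₁ ^ (ℓ + 1))⁻¹) = -(((ℓ : ℤ) + 1) • Kum.mk f₁) := by
      have := Fermat.Agent.S44.Kum.mk_zpow' f₁ (-((ℓ : ℤ) + 1))
      rw [neg_smul] at this
      rw [← this]
      congr 1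
    rw [e1, ← sub_eq_add_neg]
    rfl
  · intro n
    refine Fermat.Agent.S36.Base.mem_L0_iff.mpr fun σ hσ => ?_
    have h := congrArg (fun g : FF (M * q) => (g : LaurentSeries Qb).coeff n) (hfixz σ hσ)
    simpa [coe_galF] using h
  · obtain ⟨r₁, hr₁, hred₁⟩ := exists_redUp A _ hf0
    have hwf0 : w ((f₁ : (FF (M * q))ˣ) : FF (M * q)) ≠ 0 := (map_ne_zero w).2 hf0
    obtain ⟨r₂, hr₂, hred₂⟩ := exists_redUp A _ hwf0
    refine ⟨_, _, ?_, ?_, (redTo_quot hq hA hℓ hℓq hred₁ hr₁).congr ?_ rfl,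
      (redTo_quot hq hA hℓ hℓq hred₂ hr₂).congr ?_ rfl⟩
    · exact mul_ne_zero (Fermat.Agent.S44.Eis.heckeSer_ne_zero hξ hr₁)
        (inv_ne_zero (pow_ne_zero _ hr₁))
    · exact mul_ne_zero (Fermat.Agent.S44.Eis.heckeSer_ne_zero hξ hr₂)
        (inv_ne_zero (pow_ne_zero _ hr₂))
    · rw [hval]
      push_cast
      rfl
    · rw [hval, map_mul, map_inv₀, map_pow, hWT]
      push_cast
      rfl

end Fermat.Agent.S43.QF.S2
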