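import Fermat.Agent.S44.Const.Field
import Fermat.Agent.S36.Base.Inertia

/-!
# S43 / QF / Field : the unramified field package at `q`

`A` a valuation ring of `ℚ̄` over `q`, `I_A` its inertia group.

* `exists_field` : for every open subgroup `G ⊇ I_A` of `G_ℚ`, the field `K₀ := ℚ̄ ^ G` is a number field, `Gal(ℚ̄/K₀) = G`,
  it is fixed pointwise by `I_A`, `A₀ = A ∩ K₀` is a DVR with finite residue field and **`q` is a uniformiser of `A₀`**;
* `exists_field_kum`, `exists_field_kum₂` : the same for the stabiliser of one / two `I_A`-invariant Kummer classes (and a finite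
  set of elements of the inertia field).
-/

set_option autoImplicit false

open AlgebraicCurve ModularCurve

namespace Fermat.Agent.S43.QF

open Fermat.Agent.ES Fermat.Agent.SS
open Fermat.Agent.Crux (A0)

noncomputable section

variable {q : ℕ} {A : ValuationSubring Qb}

/-- `q` generates the maximal ideal of `A₀ = A ∩ K₀` if `K₀` is fixed pointwise by the inertia group. -/
theorem maximalIdeal_A0 (hq : q.Prime) (hA : A.LiesOverPrime q)
    (K₀ : IntermediateField ℚ Qb) (hI : ∀ s ∈ A.inertiaSubgroupIn ℚ, ∀ x ∈ K₀, s x = x) :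
    IsLocalRing.maximalIdeal (A0 K₀ A) = Ideal.span {(q : A0 K₀ A)} := by
  have hq0 : (q : Qb) ≠ 0 := Nat.cast_ne_zero.2 hq.ne_zero
  have hql : A.valuation (q : Qb) < 1 := (ValuationSubring.mem_nonunits_iff (A := A)).mp hA
  have hqpos : 0 < A.valuation (q : Qb) := zero_lt_iff.2 ((Valuation.ne_zero_iff _).2 hq0)
  apply le_antisymm
  · intro x hx
    by_cases hx0 : (x : K₀) = 0
    · have : x = 0 := Subtype.ext hx0
      rw [this]
      exact zero_mem _
    rw [← IsLocalRing.residue_eq_zero_iff, Crux.residue_eq_zero_iff_not_inv_mem] at hx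
    have hx1 : ((x : K₀) : Qb)⁻¹ ∉ A := by
      have h := hx.resolve_left hx0
      rw [ValuationSubring.mem_comap, map_inv₀] at h
      exact h
    have hX0 : ((x : K₀) : Qb) ≠ 0 := fun h => hx0 (Subtype.ext h)
    have hXlt : A.valuation ((x : K₀) : Qb) < 1 := by
      rw [← A.valuation_le_one_iff, map_inv₀, not_le] at hx1
      exact (one_lt_inv₀ (zero_lt_iff.2 ((Valuation.ne_zero_iff _).2 hX0))).1 hx1
    obtain ⟨k, hk1, hk2⟩ := Fermat.Agent.S36.Base.exists_zpow_mul_mem hq hA
      (x := ((x : K₀) : Qb))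
      (Fermat.Agent.S36.Base.mem_L0_iff.mpr fun s hs => hI s hs _ (x : K₀).2) hX0
    -- `v(x) = v(q)^(-k)`
    have hv : A.valuation (((x : K₀) : Qb) * (q : Qb) ^ k) = 1 := by
      apply le_antisymm ((A.valuation_le_one_iff _).mpr hk1)
      have h2 := (A.valuation_le_one_iff _).mpr hk2
      rw [map_inv₀] at h2
      have hpos : 0 < A.valuation (((x : K₀) : Qb) * (q : Qb) ^ k) :=
        zero_lt_iff.2 ((Valuation.ne_zero_iff _).2 (mul_ne_zero hX0 (zpow_ne_zero _ hq0)))
      exact (inv_le_one₀ hpos).1 h2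
    rw [map_mul, map_zpow₀] at hv
    have hkneg : k < 0 := by
      by_contra hk
      push Not at hk
      have h3 : A.valuation (q : Qb) ^ k ≤ 1 := by
        obtain ⟨n, rfl⟩ := Int.eq_ofNat_of_zero_le hk
        rw [zpow_natCast]
        exact pow_le_one₀ zero_le' hql.le
      have : A.valuation ((x : K₀) : Qb) * A.valuation (q : Qb) ^ k < 1 :=
        mul_lt_one_of_lt_of_le hXlt h3
      exact absurd hv this.ne
    rw [Ideal.mem_span_singleton']
    have hmem : (x : K₀) / (q : K₀) ∈ A0 K₀ A := by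
      rw [ValuationSubring.mem_comap]
      show ((x : K₀) : Qb) / ((q : K₀) : Qb) ∈ A
      have hc : ((q : K₀) : Qb) = (q : Qb) := by simp
      rw [hc, ← A.valuation_le_one_iff, map_div₀, div_le_one₀ hqpos]
      have hxe : A.valuation ((x : K₀) : Qb) = A.valuation (q : Qb) ^ (-k) := by
        rw [zpow_neg]
        exact eq_inv_of_mul_eq_one_left hv
      rw [hxe]
      calc A.valuation (q : Qb) ^ (-k) ≤ A.valuation (q : Qb) ^ (1 : ℤ) :=
            zpow_le_zpow_right_of_le_one₀ hqpos hql.le (by omega)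
        _ = A.valuation (q : Qb) := zpow_one _
    refine ⟨⟨_, hmem⟩, ?_⟩
    apply Subtype.ext
    show (x : K₀) / (q : K₀) * ((q : A0 K₀ A) : K₀) = (x : K₀)
    have hne : (q : K₀) ≠ 0 := Nat.cast_ne_zero.2 hq.ne_zero
    have hc : ((q : A0 K₀ A) : K₀) = (q : K₀) := by simp
    rw [hc, div_mul_cancel₀ _ hne]
  · rw [Ideal.span_singleton_le_iff_mem, ← IsLocalRing.residue_eq_zero_iff]
    exact Crux.residue_A0_natCast K₀ A hA

/-- `q` is a uniformiser of `A₀`. -/
theorem irreducible_q (hq : q.Prime) (hA : A.LiesOverPrime q)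
    (K₀ : IntermediateField ℚ Qb) [FiniteDimensional ℚ K₀]
    (hI : ∀ s ∈ A.inertiaSubgroupIn ℚ, ∀ x ∈ K₀, s x = x) : Irreducible (q : A0 K₀ A) :=
  haveI := Fermat.Agent.S44.Const.isDVR_A0 hq hA K₀
  (IsDiscreteValuationRing.irreducible_iff_uniformizer _).mpr (maximalIdeal_A0 hq hA K₀ hI)

/-- **The unramified field package.** -/
theorem exists_field (hq : q.Prime) (hA : A.LiesOverPrime q) (G : Subgroup GQ)
    (hG : ∃ L : IntermediateField ℚ Qb, FiniteDimensional ℚ L ∧ L.fixingSubgroup ≤ G)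
    (hI : A.inertiaSubgroupIn ℚ ≤ G) :
    ∃ (K₀ : IntermediateField ℚ Qb) (_ : NumberField K₀),
      IsDiscreteValuationRing (A0 K₀ A) ∧ Finite (IsLocalRing.ResidueField (A0 K₀ A)) ∧
      Irreducible (q : A0 K₀ A) ∧
      (∀ g : GQ, (∀ x ∈ K₀, g x = x) → g ∈ G) ∧
      (∀ g ∈ G, ∀ x ∈ K₀, g x = x) ∧
      (∀ s ∈ A.inertiaSubgroupIn ℚ, ∀ x ∈ K₀, s x = x) := by
  obtain ⟨L, hL, hLG⟩ := hG
  have hac : IsAlgClosure ℚ Qb :=
    (inferInstance : @IsAlgClosure ℚ (AlgebraicClosure ℚ) _ _ (AlgebraicClosure.instAlgebra ℚ) _)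
  have hgal : IsGalois ℚ Qb := IsAlgClosure.isGalois ℚ Qb
  have hopen : IsOpen ((G : Subgroup GQ) : Set GQ) :=
    Subgroup.isOpen_mono hLG (IntermediateField.fixingSubgroup_isOpen L)
  have hclosed : IsClosed ((G : Subgroup GQ) : Set GQ) := Subgroup.isClosed_of_isOpen _ hopen
  have hfix : (IntermediateField.fixedField G).fixingSubgroup = G :=
    InfiniteGalois.fixingSubgroup_fixedField ⟨G, hclosed⟩
  have hle : IntermediateField.fixedField G ≤ L := by
    have h1 : IntermediateField.fixedField G ≤ IntermediateField.fixedField L.fixingSubgroup := by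
      intro x hx
      rw [IntermediateField.mem_fixedField_iff] at hx ⊢
      exact fun g hg => hx g (hLG hg)
    rwa [InfiniteGalois.fixedField_fixingSubgroup] at h1
  have hfd : FiniteDimensional ℚ (IntermediateField.fixedField G) :=
    FiniteDimensional.of_injective (IntermediateField.inclusion hle).toLinearMap
      (IntermediateField.inclusion hle).injective
  have hGfix : ∀ g ∈ G, ∀ x ∈ IntermediateField.fixedField G, g x = x := by
    intro g hg x hx
    rw [IntermediateField.mem_fixedField_iff] at hx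
    exact hx g hg
  have hIfix : ∀ s ∈ A.inertiaSubgroupIn ℚ, ∀ x ∈ IntermediateField.fixedField G, s x = x :=
    fun s hs => hGfix s (hI hs)
  refine ⟨IntermediateField.fixedField G, ⟨⟩, Fermat.Agent.S44.Const.isDVR_A0 hq hA _,
    Fermat.Agent.S44.Const.finite_res_A0 hq hA _, irreducible_q hq hA _ hIfix, ?_, hGfix, hIfix⟩
  intro g hg
  rw [← hfix, IntermediateField.mem_fixingSubgroup_iff]
  exact hg

/-- the stabiliser of a Kummer class. -/
def stabK {N e : ℕ} (x : Kum N e) : Subgroup GQ where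
  carrier := {g | galKum N e g x = x}
  mul_mem' := by
    intro a b ha hb
    show galKum N e (a * b) x = x
    rw [galKum_mul, show galKum N e b x = x from hb, show galKum N e a x = x from ha]
  one_mem' := galKum_one _
  inv_mem' := by
    intro a ha
    have := Fermat.Agent.S44.Const.galKum_inv_apply a x
    rwa [show galKum N e a x = x from ha] at this

theorem mem_stabK {N e : ℕ} {x : Kum N e} {g : GQ} : g ∈ stabK x ↔ galKum N e g x = x := Iff.rfl

theorem exists_le_stabK {N e : ℕ} [NeZero N] (x : Kum N e) :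
    ∃ L : IntermediateField ℚ Qb, FiniteDimensional ℚ L ∧ L.fixingSubgroup ≤ stabK x := by
  obtain ⟨L, hL, h⟩ := galKum_smooth N e x
  refine ⟨L, hL, fun g hg => ?_⟩
  rw [IntermediateField.mem_fixingSubgroup_iff] at hg
  exact h g hg

/-- the pointwise stabiliser of a finite set of algebraic numbers. -/
theorem exists_le_fixing (T : Finset Qb) :
    ∃ L : IntermediateField ℚ Qb, FiniteDimensional ℚ L ∧
      L.fixingSubgroup ≤ (IntermediateField.adjoin ℚ (T : Set Qb)).fixingSubgroup := by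
  refine ⟨IntermediateField.adjoin ℚ (T : Set Qb), ?_, le_rfl⟩
  exact IntermediateField.finiteDimensional_adjoin
    (fun x _ => ((AlgebraicClosure.isAlgebraic ℚ).isAlgebraic x).isIntegral)

/-- **The package for two invariant classes** and a finite set `T` of elements of the inertia field. -/
theorem exists_field_kum₂ (hq : q.Prime) (hA : A.LiesOverPrime q) {N e e' : ℕ} [NeZero N]
    (x : Kum N e) (hx : ∀ s ∈ A.inertiaSubgroupIn ℚ, galKum N e s x = x)
    (z : Kum N e') (hz : ∀ s ∈ A.inertiaSubgroupIn ℚ, galKum N e' s z = z)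
    (T : Finset Qb) (hT : ∀ c ∈ T, ∀ s ∈ A.inertiaSubgroupIn ℚ, s c = c) :
    ∃ (K₀ : IntermediateField ℚ Qb) (_ : NumberField K₀),
      IsDiscreteValuationRing (A0 K₀ A) ∧ Finite (IsLocalRing.ResidueField (A0 K₀ A)) ∧
      Irreducible (q : A0 K₀ A) ∧
      (∀ g : GQ, (∀ c ∈ K₀, g c = c) → galKum N e g x = x ∧ galKum N e' g z = z) ∧
      (∀ c ∈ T, c ∈ K₀) ∧
      (∀ s ∈ A.inertiaSubgroupIn ℚ, ∀ c ∈ K₀, s c = c) := by
  obtain ⟨L₁, hL₁, h₁⟩ := exists_le_stabK x
  obtain ⟨L₂, hL₂, h₂⟩ := exists_le_stabK z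
  obtain ⟨L₃, hL₃, h₃⟩ := exists_le_fixing T
  have hac : IsAlgClosure ℚ Qb :=
    (inferInstance : @IsAlgClosure ℚ (AlgebraicClosure ℚ) _ _ (AlgebraicClosure.instAlgebra ℚ) _)
  have hgal : IsGalois ℚ Qb := IsAlgClosure.isGalois ℚ Qb
  obtain ⟨K₀, iN, iD, iF, hirr, hG, hG', hI⟩ := exists_field hq hA
    (stabK x ⊓ stabK z ⊓ (IntermediateField.adjoin ℚ (T : Set Qb)).fixingSubgroup)
    ⟨L₁ ⊔ L₂ ⊔ L₃, inferInstance, by
      intro g hg
      rw [IntermediateField.mem_fixingSubgroup_iff] at hg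
      refine ⟨⟨h₁ ?_, h₂ ?_⟩, h₃ ?_⟩
      · rw [IntermediateField.mem_fixingSubgroup_iff]
        exact fun c hc => hg c ((le_sup_left : _ ≤ L₁ ⊔ L₂ ⊔ L₃) (le_sup_left (a := L₁) hc))
      · rw [IntermediateField.mem_fixingSubgroup_iff]
        exact fun c hc => hg c ((le_sup_left : _ ≤ L₁ ⊔ L₂ ⊔ L₃) (le_sup_right (b := L₂) hc))
      · rw [IntermediateField.mem_fixingSubgroup_iff]
        exact fun c hc => hg c ((le_sup_right : _ ≤ L₁ ⊔ L₂ ⊔ L₃) hc)⟩
    (by
      intro s hs
      refine ⟨⟨hx s hs, hz s hs⟩, ?_⟩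
      show s ∈ (IntermediateField.adjoin ℚ (T : Set Qb)).fixingSubgroup
      rw [IntermediateField.mem_fixingSubgroup_iff]
      intro c hc
      have hle : IntermediateField.adjoin ℚ (T : Set Qb) ≤ Fermat.Agent.S36.Base.L0 A := by
        rw [IntermediateField.adjoin_le_iff]
        intro c hc
        exact Fermat.Agent.S36.Base.mem_L0_iff.mpr fun s hs => hT c hc s hs
      exact Fermat.Agent.S36.Base.mem_L0_iff.mp (hle hc) s hs)
  refine ⟨K₀, iN, iD, iF, hirr, fun g hg => ⟨(hG g hg).1.1, (hG g hg).1.2⟩, ?_, hI⟩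
  intro c hc
  -- `c` is fixed by `Gal(ℚ̄/K₀)`
  have h1 : c ∈ IntermediateField.fixedField K₀.fixingSubgroup := by
    rw [IntermediateField.mem_fixedField_iff]
    intro g hg
    rw [IntermediateField.mem_fixingSubgroup_iff] at hg
    have h2 : g ∈ (IntermediateField.adjoin ℚ (T : Set Qb)).fixingSubgroup := (hG g hg).2
    rw [IntermediateField.mem_fixingSubgroup_iff] at h2
    exact h2 c (IntermediateField.subset_adjoin ℚ _ hc)
  rwa [InfiniteGalois.fixedField_fixingSubgroup] at h1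

/-- **The package for one invariant class.** -/
theorem exists_field_kum (hq : q.Prime) (hA : A.LiesOverPrime q) {N e : ℕ} [NeZero N]
    (x : Kum N e) (hx : ∀ s ∈ A.inertiaSubgroupIn ℚ, galKum N e s x = x) :
    ∃ (K₀ : IntermediateField ℚ Qb) (_ : NumberField K₀),
      IsDiscreteValuationRing (A0 K₀ A) ∧ Finite (IsLocalRing.ResidueField (A0 K₀ A)) ∧
      Irreducible (q : A0 K₀ A) ∧
      (∀ g : GQ, (∀ c ∈ K₀, g c = c) → galKum N e g x = x) ∧
      (∀ s ∈ A.inertiaSubgroupIn ℚ, ∀ c ∈ K₀, s c = c) := by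
  obtain ⟨K₀, iN, iD, iF, hirr, hG, -, hI⟩ := exists_field_kum₂ hq hA x hx x hx ∅ (by simp)
  exact ⟨K₀, iN, iD, iF, hirr, fun g hg => (hG g hg).1, hI⟩

end

end Fermat.Agent.S43.QF
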