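import Fermat.Agent.S43.QF.Coeff
import Fermat.Agent.S44.PL.DescA
import Fermat.Agent.S44.Eis.Red
import Fermat.Agent.S44.XD.Field

/-!
# S43 / QF / GU : the Gauss valuation (in units of `v(q)`) of functions defined over the inertia field

`GU A q x n` : `q ^ n * x` is a Gauss unit (it has a nonzero reduction).
Calculus `mul`, `inv`, `pow`, `zpow`, `unique`, `heckeSer`, and existence for `f ∈ FF N` fixed by the inertia group of `A`.
-/

set_option autoImplicit false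
set_option linter.unusedSectionVars false

open AlgebraicCurve ModularCurve

namespace Fermat.Agent.S43.QF

open Fermat.Agent.ES Fermat.Agent.SS Fermat.Agent.SS.GM2
open Fermat.Agent.S44.Cover (LL gact bc)
open Fermat.Agent.Crux (A0)

noncomputable section

variable {A : ValuationSubring Qb} {q : ℕ}

/-- `q ^ n * x` is a Gauss unit. -/
def GU (A : ValuationSubring Qb) (q : ℕ) (x : LL) (n : ℤ) : Prop :=
  ∃ r : LaurentSeries (kA A), r ≠ 0 ∧ RedTo A (cst ((q : Qb) ^ n) * x) r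

variable {x y : LL} {n m : ℤ}

theorem cst_zpow_add (hq : q ≠ 0) (n m : ℤ) :
    cst ((q : Qb) ^ (n + m)) = cst ((q : Qb) ^ n) * cst ((q : Qb) ^ m) := by
  rw [zpow_add₀ (Nat.cast_ne_zero.2 hq), cst, cst, cst, map_mul]

theorem GU.mul (hq : q ≠ 0) (h : GU A q x n) (h' : GU A q y m) : GU A q (x * y) (n + m) := by
  obtain ⟨r, hr, h⟩ := h
  obtain ⟨r', hr', h'⟩ := h'
  refine ⟨r * r', mul_ne_zero hr hr', (h.mul h').congr ?_ rfl⟩
  rw [cst_zpow_add hq]
  ring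

theorem GU.inv (h : GU A q x n) : GU A q x⁻¹ (-n) := by
  obtain ⟨r, hr, h⟩ := h
  refine ⟨r⁻¹, inv_ne_zero hr, (h.inv hr).congr ?_ rfl⟩
  rw [mul_inv, zpow_neg, cst, cst, map_inv₀]

theorem GU.one : GU A q (1 : LL) 0 :=
  ⟨1, one_ne_zero, RedTo.one.congr (by rw [zpow_zero, cst, map_one, one_mul]) rfl⟩

theorem GU.congr (h : GU A q x n) (hx : x = y) (hn : n = m) : GU A q y m := by
  subst hx hn; exact h

theorem GU.pow (hq : q ≠ 0) (h : GU A q x n) (k : ℕ) : GU A q (x ^ k) (k * n) := by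
  induction k with
  | zero => simpa using (GU.one : GU A q (1 : LL) 0)
  | succ k ih =>
    exact (ih.mul hq h).congr (pow_succ _ _).symm (by push_cast; ring)

theorem GU.zpow (hq : q ≠ 0) (h : GU A q x n) (k : ℤ) : GU A q (x ^ k) (k * n) := by
  obtain ⟨j, rfl | rfl⟩ := k.eq_nat_or_neg
  · rw [zpow_natCast]
    exact h.pow hq j
  · rw [zpow_neg, zpow_natCast]
    exact (h.pow hq j).inv.congr rfl (by ring)

theorem GU.ne_zero (h : GU A q x n) : x ≠ 0 := by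
  rintro rfl
  obtain ⟨r, hr, h⟩ := h
  have h0 : RedTo A (cst ((q : Qb) ^ n) * (0 : LL)) 0 := by
    refine ⟨0, 1, ?_, ?_, ?_⟩
    · rw [map_one]; exact one_ne_zero
    · simp
    · simp
  exact hr (h.unique h0)

/-- a power of `q` which is Gauss integral has a nonnegative exponent. -/
theorem nonneg_of_redTo (hq : q.Prime) (hA : A.LiesOverPrime q) {k : ℤ}
    {r : LaurentSeries (kA A)} (h : RedTo A (cst ((q : Qb) ^ k)) r) : 0 ≤ k := by
  obtain ⟨a, ha, -⟩ := h.const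
  have hq0 : (q : Qb) ≠ 0 := Nat.cast_ne_zero.2 hq.ne_zero
  have hql : A.valuation (q : Qb) < 1 := (ValuationSubring.mem_nonunits_iff (A := A)).mp hA
  have hqpos : 0 < A.valuation (q : Qb) := zero_lt_iff.2 ((Valuation.ne_zero_iff _).2 hq0)
  have h1 : A.valuation ((q : Qb) ^ k) ≤ 1 := by
    rw [← ha]
    exact (A.valuation_le_one_iff _).mpr a.2
  rw [map_zpow₀] at h1
  by_contra hk
  push Not at hk
  have h2 : 1 < A.valuation (q : Qb) ^ k := by
    have h3 : A.valuation (q : Qb) ^ (-k) < 1 :=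
      (zpow_lt_one_iff_right_of_lt_one₀ hqpos hql).2 (by omega)
    rw [zpow_neg] at h3
    exact (inv_lt_one₀ (zpow_pos hqpos k)).1 h3
  exact absurd h1 (not_le.2 h2)

theorem GU.unique (hq : q.Prime) (hA : A.LiesOverPrime q) (h : GU A q x n) (h' : GU A q x m) :
    n = m := by
  have hx := h.ne_zero
  have key : ∀ {n m : ℤ}, GU A q x n → GU A q x m → m ≤ n := by
    intro n m h h'
    obtain ⟨r, hr, h1⟩ := (h.mul hq.ne_zero h'.inv)
    rw [mul_inv_cancel₀ hx, mul_one] at h1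
    have := nonneg_of_redTo hq hA h1
    omega
  exact le_antisymm (key h' h) (key h h')

theorem GU.cst (hq : q ≠ 0) (k : ℤ) : GU A q (cst ((q : Qb) ^ k)) (-k) :=
  ⟨1, one_ne_zero, RedTo.one.congr (by
    rw [← cst_zpow_add hq, neg_add_cancel, zpow_zero, SS.cst, map_one]) rfl⟩

theorem GU.zero_iff : GU A q x 0 ↔ ∃ r : LaurentSeries (kA A), r ≠ 0 ∧ RedTo A x r := by
  unfold GU
  rw [zpow_zero, SS.cst, map_one, one_mul]

theorem GU.heckeSer (hq : q.Prime) (hA : A.LiesOverPrime q) {ℓ : ℕ} [NeZero ℓ] (hℓ : ℓ.Prime)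
    (hℓq : ℓ ≠ q) (h : GU A q x n) : GU A q (ES.heckeSer ℓ x) ((ℓ + 1) * n) := by
  obtain ⟨r, hr, h⟩ := h
  obtain ⟨ζ, hζ⟩ := Fermat.Agent.ES.exists_primitiveRoot_Qb ℓ
  obtain ⟨ξ, hξ⟩ := Fermat.Agent.S44.Eis.exists_primitiveRoot_kA hq hA hℓ hℓq
  refine ⟨ES.heckeSer ℓ r, Fermat.Agent.S44.Eis.heckeSer_ne_zero hξ hr,
    (Fermat.Agent.S44.Eis.RedTo.heckeSer hq hA hℓ hℓq h).congr ?_ rfl⟩
  rw [Fermat.Agent.ES.heckeSer_mul ℓ hζ, Fermat.Agent.S44.Eis.heckeSer_cst, ← zpow_natCast,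
    ← zpow_mul]
  congr 3
  push_cast
  ring

/-- fixed by the inertia group. -/
def IFix {N : ℕ} (A : ValuationSubring Qb) (f : FF N) : Prop :=
  ∀ s ∈ A.inertiaSubgroupIn ℚ, galF N s f = f

theorem IFix.coeff_mem {N : ℕ} {f : FF N} (h : IFix A f) (n : ℤ) :
    (f : LL).coeff n ∈ Fermat.Agent.S36.Base.L0 A := by
  rw [Fermat.Agent.S36.Base.mem_L0_iff]
  intro s hs
  have h1 := congrArg (fun k : FF N => (k : LL).coeff n) (h s hs)
  simpa [coe_galF] using h1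

/-- **existence**: a nonzero function fixed by inertia has a Gauss valuation in `ℤ v(q)`. -/
theorem exists_GU (hq : q.Prime) (hA : A.LiesOverPrime q) {N : ℕ} [NeZero N] {f : FF N}
    (hf : f ≠ 0) (h : IFix A f) : ∃ n : ℤ, GU A q (f : LL) n := by
  obtain ⟨K₀, iN, iD, iF, hirr, hK, W₀, hW₀m, hW₀⟩ := exists_field_L0 hq N hA f h.coeff_mem
  have hW0 : W₀ ≠ 0 := by
    rintro rfl
    rw [map_zero] at hW₀
    exact hf (Subtype.ext hW₀.symm)
  obtain ⟨n, u, s, hs, hu, e⟩ := Fermat.Agent.S44.PL.RedK.pivot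
    (r := Fermat.Agent.S44.PL.r0 K₀ A) IsLocalRing.residue_surjective hirr hW₀m hW0
  have h1 := Fermat.Agent.S44.PL.redTo_of_redK K₀ hu
  have hq0 : (q : Qb) ≠ 0 := Nat.cast_ne_zero.2 hq.ne_zero
  refine ⟨-n, _, Fermat.Agent.S33.Calc.Ops_coeffMap_ne_zero _
    (Fermat.Agent.S44.PL.kι K₀ A).injective hs, h1.congr ?_ rfl⟩
  have e2 : (f : LL) = cst ((q : Qb) ^ n) * bc K₀ u := by
    rw [← hW₀]
    show bc K₀ W₀ = _
    rw [e, map_mul, map_zpow₀, Fermat.Agent.S44.Cover.bc_C, Fermat.Agent.S44.XD.Field_C_eq_cst,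
      SS.cst, SS.cst, map_zpow₀]
    congr 3
  rw [e2, ← mul_assoc, ← cst_zpow_add hq.ne_zero, neg_add_cancel, zpow_zero, SS.cst, map_one,
    one_mul]

end

end Fermat.Agent.S43.QF
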