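import Fermat.Agent.S43.QF.Field
import Fermat.Agent.S44.Inst.Rep
import Fermat.Agent.S36.Base.Descent

/-!
# S43 / QF / Rep : the `K₀`-rational representative of a class fixed by `Gal(ℚ̄/K₀)`, ANY exponent `e`

* `exists_rep_K0` : `x : Kum N e` fixed by `Gal(ℚ̄/K₀)`  ⟹  `x = [u]`, `u = bc W₀`, `W₀ ∈ F_{K₀}(N)`;
* `invKq_both`    : hypothesis (h1) (`InvKq`, both charts `X`, `1/X`) at exponent `e`;
* `exists_rep_unram` : everything together for an inertia-invariant class.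
-/

set_option autoImplicit false
set_option linter.unusedSectionVars false

open AlgebraicCurve ModularCurve
open scoped IntermediateField

namespace Fermat.Agent.S43.QF

open Fermat.Agent.ES Fermat.Agent.SS Fermat.Agent.SS.GM2
open Fermat.Agent.S44.Cover (LL gact bc)
open Fermat.Agent.Crux.GM (castS)
open Fermat.Agent.Crux (A0)

/-- **the `K₀`-rational representative**, any exponent. -/
theorem exists_rep_K0 {N e : ℕ} [NeZero N] (he : e ≠ 0) (K₀ : IntermediateField ℚ Qb) (x : Kum N e)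
    (hfix : ∀ g : GQ, (∀ c ∈ K₀, g c = c) → galKum N e g x = x) :
    ∃ (u : Dm N e) (W₀ : modularFunctionFieldFullC K₀ N),
      Kum.mk u = x ∧ bc K₀ (W₀ : LaurentSeries K₀) = (((u : (FF N)ˣ) : FF N) : LL) := by
  obtain ⟨f, hf, hfixf⟩ := Fermat.Agent.S36.Base.exists_rep_fixed N e he K₀.fixingSubgroup x
    (fun σ hσ => hfix σ ((IntermediateField.mem_fixingSubgroup_iff K₀ σ).mp hσ))
  obtain ⟨W₀, hW₀⟩ := Fermat.Agent.S44.Cover.exists_of_fixed K₀ (((f : (FF N)ˣ) : FF N) : LL)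
    (fun g hg => by
      have h := hfixf g ((IntermediateField.mem_fixingSubgroup_iff K₀ g).mpr hg)
      exact congrArg (fun y : FF N => (y : LL)) h)
  refine ⟨f, ⟨W₀, ?_⟩, hf, hW₀⟩
  refine S33.desc K₀ N _ ?_
  rw [show coeffMap (algebraMap K₀ Qb) W₀ = (((f : (FF N)ˣ) : FF N) : LL) from hW₀]
  exact (((f : (FF N)ˣ) : FF N)).2

/-- **(h1)** at exponent `e`, both charts. -/
theorem invKq_both {M q e : ℕ} [NeZero M] [NeZero q] (he : 0 < e) (K₀ : IntermediateField ℚ Qb)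
    (u : Dm (M * q) e) (W₀ : LaurentSeries K₀)
    (hW₀ : bc K₀ W₀ = (((u : (FF (M * q))ˣ) : FF (M * q)) : LL)) :
    InvKq K₀ (M * q) e (castS K₀ (Xh M q)) W₀ ∧ InvKq K₀ (M * q) e (castS K₀ (Xh M q))⁻¹ W₀ := by
  have hfd0 : FiniteDimensional Qb⟮S24.jN (M * q)⟯ (FF (M * q)) := S24.finiteDimensional_FN (M * q)
  have hfd : FiniteDimensional Qb⟮XF M q⟯ (FF (M * q)) :=
    S24.FF.finiteDimensional_of_transcendental Qb (S24.jN (M * q)) (transcendental_XF M q)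
  have hfd' : FiniteDimensional Qb⟮(XF M q)⁻¹⟯ (FF (M * q)) :=
    S24.FF.finiteDimensional_of_transcendental Qb (S24.jN (M * q)) (transcendental_XF_inv M q)
  have hXm : bc K₀ (castS K₀ (Xh M q)) = ((XF M q : FF (M * q)) : LL) := by
    show coeffMap (algebraMap K₀ Qb) (castS K₀ (Xh M q)) = _
    rw [Crux.GM.coeffMap_castS]
    rfl
  have hXm' : bc K₀ (castS K₀ (Xh M q))⁻¹ = (((XF M q)⁻¹ : FF (M * q)) : LL) := by
    rw [map_inv₀, hXm]
    rfl
  have hu0 : ((u : (FF (M * q))ˣ) : FF (M * q)) ≠ 0 := (u : (FF (M * q))ˣ).ne_zero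
  have hdiv : ∀ P : Place Qb (FF (M * q)), (e : ℤ) ∣ P.ord ((u : (FF (M * q))ˣ) : FF (M * q)) :=
    fun P => u.2 P
  exact ⟨Fermat.Agent.S44.Cover.invKq_K0 (M * q) e he _ W₀ (XF M q) _ hXm hW₀ hu0 hdiv,
    Fermat.Agent.S44.Cover.invKq_K0 (M * q) e he _ W₀ (XF M q)⁻¹ _ hXm' hW₀ hu0 hdiv⟩

/-- **Everything together**: an inertia-invariant class of `Kum (M q) e` is represented over a number field `K₀` which is
unramified at `A` (uniformiser `q`), together with the Atkin-Lehner involution of `F_{K₀}(M q)` and the two `InvKq`. -/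
theorem exists_rep_unram {M q e : ℕ} [NeZero M] [NeZero q] (hq : q.Prime) (he : 0 < e)
    {A : ValuationSubring Qb} (hA : A.LiesOverPrime q)
    (w : FF (M * q) →ₐ[Qb] FF (M * q)) (hw : IsAL M q w)
    (x : Kum (M * q) e) (hx : ∀ s ∈ A.inertiaSubgroupIn ℚ, galKum (M * q) e s x = x) :
    ∃ (K₀ : IntermediateField ℚ Qb) (_ : NumberField K₀)
      (_ : IsDiscreteValuationRing (A0 K₀ A)) (_ : Finite (IsLocalRing.ResidueField (A0 K₀ A)))
      (wK : modularFunctionFieldFullC K₀ (M * q) →ₐ[K₀] modularFunctionFieldFullC K₀ (M * q))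
      (u : Dm (M * q) e) (W₀ : modularFunctionFieldFullC K₀ (M * q)),
      Irreducible (q : A0 K₀ A) ∧
      (∀ s ∈ A.inertiaSubgroupIn ℚ, ∀ c ∈ K₀, s c = c) ∧
      IsALK K₀ M q wK ∧
      (∀ (f : modularFunctionFieldFullC K₀ (M * q)) (f' : FF (M * q)),
        (f' : LL) = bc K₀ (f : LaurentSeries K₀) →
        ((w f' : FF (M * q)) : LL) = bc K₀ ((wK f : modularFunctionFieldFullC K₀ (M * q)) :
          LaurentSeries K₀)) ∧
      Kum.mk u = x ∧ bc K₀ (W₀ : LaurentSeries K₀) = (((u : (FF (M * q))ˣ) : FF (M * q)) : LL) ∧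
      InvKq K₀ (M * q) e (castS K₀ (Xh M q)) (W₀ : LaurentSeries K₀) ∧
      InvKq K₀ (M * q) e (castS K₀ (Xh M q))⁻¹ (W₀ : LaurentSeries K₀) := by
  have hN : NeZero (M * q) := ⟨Nat.mul_ne_zero (NeZero.ne M) (NeZero.ne q)⟩
  obtain ⟨K₀, iN, iD, iF, hirr, hG, hI⟩ := exists_field_kum hq hA x hx
  obtain ⟨wK, hwK, hwK'⟩ := exists_wK M q hq w hw K₀
  obtain ⟨u, W₀, hu, hW₀⟩ := exists_rep_K0 he.ne' K₀ x hG
  obtain ⟨h0, hinf⟩ := invKq_both he K₀ u (W₀ : LaurentSeries K₀) hW₀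
  exact ⟨K₀, iN, iD, iF, wK, u, W₀, hirr, hI, hwK, hwK', hu, hW₀, h0, hinf⟩

end Fermat.Agent.S43.QF
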