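import Fermat.Agent.S43.QF.Slope

/-!
# S43 / QF / Vert : the vertical unit over an unramified number field `K₀` (form consumed by `S43.Q.CtxQ.loc0 / locinf`)

* `redK_of_redTo`     : `W₀ ∈ F_{K₀}(N)`, `q` a uniformiser of `A ∩ K₀`, `bc W₀` a Gauss unit over `ℚ̄`  ⟹  `RedK (r0 K₀ A) W₀ s`, `s ≠ 0`;
* `exists_vertical_K0`: `exists_vertical_unit` + `exists_pkg_L0` + the two `RedK`.
-/

set_option autoImplicit false
set_option linter.unusedSectionVars false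

open AlgebraicCurve ModularCurve

namespace Fermat.Agent.S43.QF

open Fermat.Agent.ES Fermat.Agent.SS Fermat.Agent.SS.GM2
open Fermat.Agent.S44.Cover (LL gact bc)
open Fermat.Agent.Crux.GM (castS)
open Fermat.Agent.Crux (A0)
open Fermat.Agent.S44.PL (r0 kι lam)

noncomputable section

variable {A : ValuationSubring Qb} {q : ℕ}

/-- a Gauss unit over `ℚ̄` which is defined over `K₀` (unramified) is a Gauss unit over `K₀`. -/
theorem redK_of_redTo (hq : q.Prime) (hA : A.LiesOverPrime q) (K₀ : IntermediateField ℚ Qb)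
    [IsDiscreteValuationRing (A0 K₀ A)] (hirr : Irreducible (q : A0 K₀ A)) {N : ℕ}
    {W₀ : LaurentSeries K₀} (hm : W₀ ∈ modularFunctionFieldFullC K₀ N)
    (h : ∃ r : LaurentSeries (kA A), r ≠ 0 ∧ RedTo A (bc K₀ W₀) r) :
    ∃ s : LaurentSeries (IsLocalRing.ResidueField (A0 K₀ A)), s ≠ 0 ∧ RedK (r0 K₀ A) W₀ s := by
  have h0 : GU A q (bc K₀ W₀) 0 := GU.zero_iff.2 h
  have hW0 : W₀ ≠ 0 := by
    rintro rfl
    exact h0.ne_zero (map_zero _)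
  obtain ⟨n, u, s, hs, hu, e⟩ := Fermat.Agent.S44.PL.RedK.pivot
    (r := r0 K₀ A) IsLocalRing.residue_surjective hirr hm hW0
  have h1 := Fermat.Agent.S44.PL.redTo_of_redK K₀ hu
  have h2 : GU A q (bc K₀ u) 0 := GU.zero_iff.2 ⟨_, Fermat.Agent.S33.Calc.Ops_coeffMap_ne_zero _
    (kι K₀ A).injective hs, h1⟩
  have e2 : bc K₀ W₀ = cst ((q : Qb) ^ n) * bc K₀ u := by
    rw [e, map_mul, map_zpow₀, Fermat.Agent.S44.Cover.bc_C, Fermat.Agent.S44.XD.Field_C_eq_cst,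
      SS.cst, SS.cst, map_zpow₀]
    congr 3
  have h3 : GU A q (bc K₀ W₀) (-n + 0) := by
    rw [e2]
    exact (GU.cst hq.ne_zero n).mul hq.ne_zero h2
  have hn : n = 0 := by
    have := h0.unique hq hA h3
    omega
  rw [hn, zpow_zero, one_mul] at e
  exact ⟨s, hs, e ▸ hu⟩

variable {M e ℓ : ℕ} [NeZero M] [NeZero q] [NeZero ℓ] {w : FF (M * q) →ₐ[Qb] FF (M * q)}

/-- **the vertical unit over `K₀`.** -/
theorem exists_vertical_K0 (hq : q.Prime) (hA : A.LiesOverPrime q) (hw : IsAL M q w)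
    (he : e ≠ 0) (hℓ : ℓ.Prime) (hℓN : ¬ ℓ ∣ M * q)
    (hWT : ∀ f : FF (M * q), w (heckeF (M * q) ℓ hℓ hℓN f) = heckeF (M * q) ℓ hℓ hℓN (w f))
    (a : ℤ) (hne : IsCoprime (a - ℓ - 1) (e : ℤ))
    (D : Kum (M * q) e →+ Kum (M * q) e)
    (hD : ∀ x, D x = heckeKum (M * q) ℓ hℓ hℓN e x - a • x)
    (z : Kum (M * q) e) (hzI : ∀ s ∈ A.inertiaSubgroupIn ℚ, galKum (M * q) e s z = z)
    (hz : ∃ n : ℕ, D^[n] z = 0) :
    ∃ (K₀ : IntermediateField ℚ Qb) (_ : NumberField K₀)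
      (_ : IsDiscreteValuationRing (A0 K₀ A)) (_ : Finite (IsLocalRing.ResidueField (A0 K₀ A)))
      (wK : modularFunctionFieldFullC K₀ (M * q) →ₐ[K₀] modularFunctionFieldFullC K₀ (M * q))
      (fz : Dm (M * q) e) (W₀ : modularFunctionFieldFullC K₀ (M * q)),
      Irreducible (q : A0 K₀ A) ∧ K₀ ≤ Fermat.Agent.S36.Base.L0 A ∧
      IsALK K₀ M q wK ∧
      (∀ (f : modularFunctionFieldFullC K₀ (M * q)) (f' : FF (M * q)),
        (f' : LL) = bc K₀ (f : LaurentSeries K₀) →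
        ((w f' : FF (M * q)) : LL) = bc K₀ ((wK f : modularFunctionFieldFullC K₀ (M * q)) :
          LaurentSeries K₀)) ∧
      Kum.mk fz = z ∧
      (∀ s ∈ A.inertiaSubgroupIn ℚ,
        galF (M * q) s ((fz : (FF (M * q))ˣ) : FF (M * q)) = ((fz : (FF (M * q))ˣ) : FF (M * q))) ∧
      bc K₀ (W₀ : LaurentSeries K₀) = (((fz : (FF (M * q))ˣ) : FF (M * q)) : LL) ∧
      InvKq K₀ (M * q) e (castS K₀ (Xh M q)) (W₀ : LaurentSeries K₀) ∧
      InvKq K₀ (M * q) e (castS K₀ (Xh M q))⁻¹ (W₀ : LaurentSeries K₀) ∧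
      (∃ s : LaurentSeries (IsLocalRing.ResidueField (A0 K₀ A)), s ≠ 0 ∧
        RedK (r0 K₀ A) (W₀ : LaurentSeries K₀) s) ∧
      (∃ s : LaurentSeries (IsLocalRing.ResidueField (A0 K₀ A)), s ≠ 0 ∧
        RedK (r0 K₀ A) ((wK W₀ : modularFunctionFieldFullC K₀ (M * q)) : LaurentSeries K₀) s) := by
  obtain ⟨fz, hfz, hI, hr₁, hr₂⟩ :=
    exists_vertical_unit hq hA hw he hℓ hℓN hWT a hne D hD z hzI hz
  obtain ⟨K₀, iN, iD, iF, wK, W₀, hirr, hK, hwK, hwK', hW₀, h0, hinf⟩ :=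
    exists_pkg_L0 hq (Nat.pos_of_ne_zero he) hA w hw fz (IFix.coeff_mem (A := A) hI)
  refine ⟨K₀, iN, iD, iF, wK, fz, W₀, hirr, hK, hwK, hwK', hfz, hI, hW₀, h0, hinf,
    redK_of_redTo hq hA K₀ hirr W₀.2 (by rw [hW₀]; exact hr₁),
    redK_of_redTo hq hA K₀ hirr (wK W₀).2 ?_⟩
  rw [← hwK' W₀ _ hW₀.symm]
  exact hr₂

end

end Fermat.Agent.S43.QF
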