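import Fermat.Agent.SS.Formal.AL
import Fermat.Agent.ES.B.Comm

/-!
# S43 / QF / WHecke : the Atkin-Lehner involution `w_q` commutes with the multiplicative Hecke operator `T_ℓ` ON FUNCTIONS

`w (heckeF (M q) ℓ f) = heckeF (M q) ℓ (w f)` for every `f ∈ F_{Mq}` (an equality of functions, not only of Kummer classes).

Proof: `T_ℓ f = Norm_α (β f)` (level `M q ℓ`); the involution `w'` of level `(M ℓ) q` satisfies `w' α = α w`, `w' β = β w`
(ring homomorphisms, checked on generators) and the norm commutes with the pair of automorphisms `(w, w')`.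
-/

set_option autoImplicit false
set_option linter.unusedSectionVars false
set_option linter.style.haveILetI false

open AlgebraicCurve ModularCurve

namespace Fermat.Agent.S43.QF.WH

open Fermat.Agent.ES Fermat.Agent.SS

noncomputable section

/-- transport of an involution along an equality of levels. -/
theorem exists_transport {a b : ℕ} (h : a = b) (w : FF a →ₐ[Qb] FF a) (hw : ∀ x, w (w x) = x) :
    ∃ w' : FF b →ₐ[Qb] FF b, (∀ y, w' (w' y) = y) ∧
      ∀ (x : FF a) (y : FF b), (x : LaurentSeries Qb) = (y : LaurentSeries Qb) →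
        ((w' y : FF b) : LaurentSeries Qb) = ((w x : FF a) : LaurentSeries Qb) := by
  subst h
  exact ⟨w, hw, fun x y hxy => by rw [Subtype.ext hxy]⟩

variable {M q ℓ : ℕ} [NeZero M] [NeZero q] [NeZero ℓ]

/-- the involution `w_q` at level `M q ℓ`. -/
theorem exists_w' (hq : q.Prime) (hqM : ¬ q ∣ M) (hℓ : ℓ.Prime) (hℓN : ¬ ℓ ∣ M * q)
    {w : FF (M * q) →ₐ[Qb] FF (M * q)} (hw : IsAL M q w) :
    ∃ w' : FF (M * q * ℓ) →ₐ[Qb] FF (M * q * ℓ), (∀ y, w' (w' y) = y) ∧
      (∀ g : FF (M * q), w' (heckeAlphaBar Qb (M * q) ℓ g) = heckeAlphaBar Qb (M * q) ℓ (w g)) ∧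
      (∀ g : FF (M * q), w' (heckeBetaBar Qb (M * q) ℓ g) = heckeBetaBar Qb (M * q) ℓ (w g)) := by
  have hqℓ : q ≠ ℓ := fun h => hℓN (h ▸ dvd_mul_left q M)
  have hqMℓ : ¬ q ∣ M * ℓ := fun h =>
    (hq.dvd_mul.1 h).elim hqM fun h' => hqℓ ((Nat.prime_dvd_prime_iff_eq hq hℓ).1 h')
  obtain ⟨w₂, hw₂⟩ := exists_isAL (M * ℓ) q hq hqMℓ
  obtain ⟨w', hinv, htr⟩ := exists_transport (Nat.mul_right_comm M ℓ q) w₂ (hw₂.invol hq)
  refine ⟨w', hinv, fun g => ?_, fun g => ?_⟩
  · refine induction_gen hq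
      (fun g => w' (heckeAlphaBar Qb (M * q) ℓ g) = heckeAlphaBar Qb (M * q) ℓ (w g))
      (fun c => ?_) (fun a => ?_) (fun a => ?_) (fun x y hx hy => ?_) (fun x y hx hy => ?_)
      (fun x hx => ?_) g
    · simp only [AlgHom.commutes]
    · apply Subtype.ext
      rw [htr (heckeAlphaBar Qb (M * ℓ) q (heckeAlphaBar Qb M ℓ a)) _
        (by simp only [coe_heckeAlphaBar]), hw₂.alpha, hw.alpha]
      simp only [coe_heckeAlphaBar, coe_heckeBetaBar]
    · apply Subtype.ext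
      rw [htr (heckeBetaBar Qb (M * ℓ) q (heckeAlphaBar Qb M ℓ a)) _
        (by simp only [coe_heckeAlphaBar, coe_heckeBetaBar]), hw₂.beta, hw.beta]
      simp only [coe_heckeAlphaBar]
    · simp only [map_add, hx, hy]
    · simp only [map_mul, hx, hy]
    · simp only [map_inv₀, hx]
  · refine induction_gen hq
      (fun g => w' (heckeBetaBar Qb (M * q) ℓ g) = heckeBetaBar Qb (M * q) ℓ (w g))
      (fun c => ?_) (fun a => ?_) (fun a => ?_) (fun x y hx hy => ?_) (fun x y hx hy => ?_)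
      (fun x hx => ?_) g
    · simp only [AlgHom.commutes]
    · apply Subtype.ext
      rw [htr (heckeAlphaBar Qb (M * ℓ) q (heckeBetaBar Qb M ℓ a)) _
        (by simp only [coe_heckeAlphaBar, coe_heckeBetaBar]), hw₂.alpha, hw.alpha]
      simp only [coe_heckeBetaBar]
      exact Comm.Vq_Vq_comm q ℓ _
    · apply Subtype.ext
      rw [htr (heckeBetaBar Qb (M * ℓ) q (heckeBetaBar Qb M ℓ a)) _
        (by simp only [coe_heckeBetaBar]; exact Comm.Vq_Vq_comm q ℓ _), hw₂.beta, hw.beta]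
      simp only [coe_heckeAlphaBar, coe_heckeBetaBar]
    · simp only [map_add, hx, hy]
    · simp only [map_mul, hx, hy]
    · simp only [map_inv₀, hx]

/-- an involutive algebra endomorphism as a ring equivalence. -/
def equivOfInvol {F : Type*} [Field F] [Algebra Qb F] (w : F →ₐ[Qb] F) (h : ∀ x, w (w x) = x) :
    F ≃+* F where
  toFun := w
  invFun := w
  left_inv := h
  right_inv := h
  map_mul' := map_mul w
  map_add' := map_add w

theorem equivOfInvol_apply {F : Type*} [Field F] [Algebra Qb F] (w : F →ₐ[Qb] F)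
    (h : ∀ x, w (w x) = x) (x : F) : equivOfInvol w h x = w x := rfl

theorem equivOfInvol_symm_apply {F : Type*} [Field F] [Algebra Qb F] (w : F →ₐ[Qb] F)
    (h : ∀ x, w (w x) = x) (x : F) : (equivOfInvol w h).symm x = w x := rfl

/-- **`w_q` commutes with `T_ℓ` on functions** (norm form). -/
theorem w_heckeNorm (hq : q.Prime) (hqM : ¬ q ∣ M) (hℓ : ℓ.Prime) (hℓN : ¬ ℓ ∣ M * q)
    {w : FF (M * q) →ₐ[Qb] FF (M * q)} (hw : IsAL M q w) (f : FF (M * q)) :
    w (heckeNorm (M * q) ℓ f) = heckeNorm (M * q) ℓ (w f) := by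
  obtain ⟨w', hinv, hα, hβ⟩ := exists_w' hq hqM hℓ hℓN hw
  letI := algebraAlong (heckeAlphaBar Qb (M * q) ℓ)
  have key := Algebra.norm_eq_of_equiv_equiv (equivOfInvol w (hw.invol hq)) (equivOfInvol w' hinv)
    (RingHom.ext fun g => (hα g).symm) (heckeBetaBar Qb (M * q) ℓ f)
  rw [equivOfInvol_symm_apply, equivOfInvol_apply, hβ] at key
  have h1 : heckeNorm (M * q) ℓ f = Algebra.norm (FF (M * q)) (heckeBetaBar Qb (M * q) ℓ f) := rfl
  have h2 : heckeNorm (M * q) ℓ (w f)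
      = Algebra.norm (FF (M * q)) (heckeBetaBar Qb (M * q) ℓ (w f)) := rfl
  rw [h1, h2, key, hw.invol hq]

/-- **`w_q` commutes with `T_ℓ` on functions.** -/
theorem w_heckeF (hq : q.Prime) (hqM : ¬ q ∣ M) (hℓ : ℓ.Prime) (hℓN : ¬ ℓ ∣ M * q)
    {w : FF (M * q) →ₐ[Qb] FF (M * q)} (hw : IsAL M q w) (f : FF (M * q)) :
    w (heckeF (M * q) ℓ hℓ hℓN f) = heckeF (M * q) ℓ hℓ hℓN (w f) := by
  have h : ∀ g : FF (M * q), heckeF (M * q) ℓ hℓ hℓN g = heckeNorm (M * q) ℓ g := fun g =>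
    Subtype.ext (heckeSer_eq_heckeNorm (M * q) ℓ hℓ hℓN g)
  rw [h, h, w_heckeNorm hq hqM hℓ hℓN hw]

/-- series form. -/
theorem coe_w_heckeF (hq : q.Prime) (hqM : ¬ q ∣ M) (hℓ : ℓ.Prime) (hℓN : ¬ ℓ ∣ M * q)
    {w : FF (M * q) →ₐ[Qb] FF (M * q)} (hw : IsAL M q w) (f : FF (M * q)) :
    ((w (heckeF (M * q) ℓ hℓ hℓN f) : FF (M * q)) : LaurentSeries Qb)
      = heckeSer ℓ ((w f : FF (M * q)) : LaurentSeries Qb) := by
  rw [w_heckeF hq hqM hℓ hℓN hw, coe_heckeF]

end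

end Fermat.Agent.S43.QF.WH
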