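import Fermat.Agent.ES.B.HeckeNorm
import Fermat.Agent.ES.B.Module
import Fermat.Agent.ES.B.Comm
import Fermat.Agent.SS.Formal.AL

/-!
# S43 / QF / WT18 : the Atkin-Lehner involution `w_q` commutes with `T_ℓ` on FUNCTIONS  (shadow of `QF/WT.lean`)
-/

set_option autoImplicit false
set_option linter.unusedSectionVars false

open AlgebraicCurve ModularCurve

namespace Fermat.Agent.S43.QF.WT18

open Fermat.Agent.ES Fermat.Agent.SS

noncomputable section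

/-- series characterisation of the Atkin-Lehner involution at `q` on the field of level `N₂ = M' q`. -/
def ALser (M' q N₂ : ℕ) [NeZero q] (w₂ : FF N₂ →ₐ[Qb] FF N₂) : Prop :=
  (∀ y, w₂ (w₂ y) = y) ∧ ∀ (f : FF M') (y : FF N₂),
    ((y : LaurentSeries Qb) = (f : LaurentSeries Qb) →
      ((w₂ y : FF N₂) : LaurentSeries Qb) = Vq Qb q (f : LaurentSeries Qb)) ∧
    ((y : LaurentSeries Qb) = Vq Qb q (f : LaurentSeries Qb) →
      ((w₂ y : FF N₂) : LaurentSeries Qb) = (f : LaurentSeries Qb))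

theorem exists_ALser (M' q : ℕ) [NeZero M'] [NeZero q] (hq : q.Prime) (hqM : ¬ q ∣ M') :
    ∃ w₂ : FF (M' * q) →ₐ[Qb] FF (M' * q), ALser M' q (M' * q) w₂ := by
  obtain ⟨w', hw'⟩ := exists_isAL M' q hq hqM
  refine ⟨w', hw'.invol hq, fun f y => ⟨fun h => ?_, fun h => ?_⟩⟩
  · have : y = heckeAlphaBar Qb M' q f := Subtype.ext (by rw [h, coe_heckeAlphaBar])
    rw [this, hw'.alpha, coe_heckeBetaBar]
  · have : y = heckeBetaBar Qb M' q f := Subtype.ext (by rw [h, coe_heckeBetaBar])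
    rw [this, hw'.beta, coe_heckeAlphaBar]

variable {M q ℓ : ℕ} [NeZero M] [NeZero q] [NeZero ℓ] {w : FF (M * q) →ₐ[Qb] FF (M * q)}

theorem w₂_alpha (hq : q.Prime) (hw : IsAL M q w) {w₂ : FF (M * q * ℓ) →ₐ[Qb] FF (M * q * ℓ)}
    (h₂ : ALser (M * ℓ) q (M * q * ℓ) w₂) (x : FF (M * q)) :
    w₂ (heckeAlphaBar Qb (M * q) ℓ x) = heckeAlphaBar Qb (M * q) ℓ (w x) := by
  refine induction_gen hq (fun x => w₂ (heckeAlphaBar Qb (M * q) ℓ x)
    = heckeAlphaBar Qb (M * q) ℓ (w x)) ?_ ?_ ?_ ?_ ?_ ?_ x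
  · intro c
    rw [AlgHom.commutes, AlgHom.commutes, AlgHom.commutes, AlgHom.commutes]
  · intro f
    apply Subtype.ext
    rw [((h₂.2 (heckeAlphaBar Qb M ℓ f) _).1 (by
      rw [coe_heckeAlphaBar, coe_heckeAlphaBar, coe_heckeAlphaBar])), hw.alpha,
      coe_heckeAlphaBar, coe_heckeAlphaBar, coe_heckeBetaBar]
  · intro f
    apply Subtype.ext
    rw [((h₂.2 (heckeAlphaBar Qb M ℓ f) _).2 (by
      rw [coe_heckeAlphaBar, coe_heckeAlphaBar, coe_heckeBetaBar])), hw.beta,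
      coe_heckeAlphaBar, coe_heckeAlphaBar, coe_heckeAlphaBar]
  · intro x y hx hy
    rw [map_add, map_add, map_add, map_add, hx, hy]
  · intro x y hx hy
    rw [map_mul, map_mul, map_mul, map_mul, hx, hy]
  · intro x hx
    rw [map_inv₀, map_inv₀, map_inv₀, map_inv₀, hx]

theorem w₂_beta (hq : q.Prime) (hw : IsAL M q w) {w₂ : FF (M * q * ℓ) →ₐ[Qb] FF (M * q * ℓ)}
    (h₂ : ALser (M * ℓ) q (M * q * ℓ) w₂) (x : FF (M * q)) :
    w₂ (heckeBetaBar Qb (M * q) ℓ x) = heckeBetaBar Qb (M * q) ℓ (w x) := by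
  refine induction_gen hq (fun x => w₂ (heckeBetaBar Qb (M * q) ℓ x)
    = heckeBetaBar Qb (M * q) ℓ (w x)) ?_ ?_ ?_ ?_ ?_ ?_ x
  · intro c
    rw [AlgHom.commutes, AlgHom.commutes, AlgHom.commutes, AlgHom.commutes]
  · intro f
    apply Subtype.ext
    rw [((h₂.2 (heckeBetaBar Qb M ℓ f) _).1 (by
      rw [coe_heckeBetaBar, coe_heckeAlphaBar, coe_heckeBetaBar])), hw.alpha,
      coe_heckeBetaBar, coe_heckeBetaBar, coe_heckeBetaBar]
    exact Comm.Vq_Vq_comm q ℓ _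
  · intro f
    apply Subtype.ext
    rw [((h₂.2 (heckeBetaBar Qb M ℓ f) _).2 (by
      rw [coe_heckeBetaBar, coe_heckeBetaBar, coe_heckeBetaBar]
      exact Comm.Vq_Vq_comm ℓ q _)), hw.beta,
      coe_heckeBetaBar, coe_heckeBetaBar, coe_heckeAlphaBar]
  · intro x y hx hy
    rw [map_add, map_add, map_add, map_add, hx, hy]
  · intro x y hx hy
    rw [map_mul, map_mul, map_mul, map_mul, hx, hy]
  · intro x hx
    rw [map_inv₀, map_inv₀, map_inv₀, map_inv₀, hx]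

/-- an involutive algebra endomorphism as a ring equivalence. -/
def eqv {N : ℕ} (v : FF N →ₐ[Qb] FF N) (hv : ∀ y, v (v y) = y) : FF N ≃+* FF N :=
  { toFun := v
    invFun := v
    left_inv := hv
    right_inv := hv
    map_mul' := map_mul v
    map_add' := map_add v }

theorem w_heckeNorm (hq : q.Prime) (hqM : ¬ q ∣ M) (hw : IsAL M q w) (hℓ : ℓ.Prime)
    (hℓN : ¬ ℓ ∣ M * q) (f : FF (M * q)) :
    haveI : NeZero (M * q) := ⟨Nat.mul_ne_zero (NeZero.ne M) (NeZero.ne q)⟩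
    w (heckeNorm (M * q) ℓ f) = heckeNorm (M * q) ℓ (w f) := by
  haveI : NeZero (M * q) := ⟨Nat.mul_ne_zero (NeZero.ne M) (NeZero.ne q)⟩
  have hℓq : ℓ ≠ q := fun h => hℓN (h ▸ Dvd.intro_left M rfl)
  have hqMℓ : ¬ q ∣ M * ℓ := fun h => (hq.dvd_mul.mp h).elim hqM
    (fun h' => hℓq ((Nat.prime_dvd_prime_iff_eq hq hℓ).mp h').symm)
  obtain ⟨w₂, h₂⟩ : ∃ w₂ : FF (M * q * ℓ) →ₐ[Qb] FF (M * q * ℓ),
      ALser (M * ℓ) q (M * q * ℓ) w₂ := by
    have h := exists_ALser (M * ℓ) q hq hqMℓ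
    rwa [show M * ℓ * q = M * q * ℓ by ring] at h
  letI := algebraAlong (heckeAlphaBar Qb (M * q) ℓ)
  have key := Algebra.norm_eq_of_equiv_equiv (A₁ := FF (M * q)) (B₁ := FF (M * q * ℓ))
    (A₂ := FF (M * q)) (B₂ := FF (M * q * ℓ)) (eqv w (hw.invol hq)) (eqv w₂ h₂.1)
    (RingHom.ext fun x => (w₂_alpha hq hw h₂ x).symm)
    (heckeBetaBar Qb (M * q) ℓ f)
  show w (Algebra.norm (FF (M * q)) (heckeBetaBar Qb (M * q) ℓ f))
    = Algebra.norm (FF (M * q)) (heckeBetaBar Qb (M * q) ℓ (w f))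
  rw [key]
  have e1 : eqv w₂ h₂.1 (heckeBetaBar Qb (M * q) ℓ f) = heckeBetaBar Qb (M * q) ℓ (w f) :=
    w₂_beta hq hw h₂ f
  rw [e1]
  exact hw.invol hq _

/-- **`w T_ℓ = T_ℓ w` on functions.** -/
theorem w_heckeF (hq : q.Prime) (hqM : ¬ q ∣ M) (hw : IsAL M q w) (hℓ : ℓ.Prime)
    (hℓN : ¬ ℓ ∣ M * q) (f : FF (M * q)) :
    w (heckeF (M * q) ℓ hℓ hℓN f) = heckeF (M * q) ℓ hℓ hℓN (w f) := by
  haveI : NeZero (M * q) := ⟨Nat.mul_ne_zero (NeZero.ne M) (NeZero.ne q)⟩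
  have e : ∀ g : FF (M * q), heckeF (M * q) ℓ hℓ hℓN g = heckeNorm (M * q) ℓ g := fun g =>
    Subtype.ext (heckeSer_eq_heckeNorm (M * q) ℓ hℓ hℓN g)
  rw [e, e]
  exact w_heckeNorm hq hqM hw hℓ hℓN f

end

end Fermat.Agent.S43.QF.WT18
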