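import Fermat.Agent.SS.Formal.AL
import Fermat.Agent.ES.B.HeckeNorm
import Fermat.Agent.ES.B.Module

/-!
# S43 / QF / WT2 : the Atkin-Lehner involution `w_q` commutes with the multiplicative Hecke operator `T_ℓ` on FUNCTIONS of `F_{Mq}` (backup of W-T)
-/

set_option autoImplicit false
set_option linter.style.haveILetI false

open AlgebraicCurve ModularCurve

namespace Fermat.Agent.S43.QF.WT2

open Fermat.Agent.ES Fermat.Agent.SS

noncomputable section

/-- the Atkin-Lehner involution at `q` of a level `N2 = M' q`, characterised on series. -/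
theorem exists_w2 (M' q N2 : ℕ) [NeZero M'] [NeZero q] [NeZero N2] (hq : q.Prime) (hqM : ¬ q ∣ M')
    (h : N2 = M' * q) :
    ∃ w2 : FF N2 →ₐ[Qb] FF N2, (∀ x, w2 (w2 x) = x) ∧
      ∀ (f' : FF M') (y : FF N2),
        ((y : LaurentSeries Qb) = (f' : LaurentSeries Qb) →
          ((w2 y : FF N2) : LaurentSeries Qb) = Vq Qb q (f' : LaurentSeries Qb)) ∧
        ((y : LaurentSeries Qb) = Vq Qb q (f' : LaurentSeries Qb) →
          ((w2 y : FF N2) : LaurentSeries Qb) = (f' : LaurentSeries Qb)) := by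
  subst h
  obtain ⟨w', hw'⟩ := exists_isAL M' q hq hqM
  refine ⟨w', hw'.invol hq, fun f' y => ⟨fun hy => ?_, fun hy => ?_⟩⟩
  · have e : y = heckeAlphaBar Qb M' q f' := Subtype.ext (by rw [hy, coe_heckeAlphaBar])
    rw [e, hw'.alpha, coe_heckeBetaBar]
  · have e : y = heckeBetaBar Qb M' q f' := Subtype.ext (by rw [hy, coe_heckeBetaBar])
    rw [e, hw'.beta, coe_heckeAlphaBar]

variable {M q ℓ : ℕ} [NeZero M] [NeZero q] [NeZero ℓ]

theorem Vq_comm (f : LaurentSeries Qb) : Vq Qb q (Vq Qb ℓ f) = Vq Qb ℓ (Vq Qb q f) := by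
  have : NeZero (q * ℓ) := ⟨Nat.mul_ne_zero (NeZero.ne q) (NeZero.ne ℓ)⟩
  have : NeZero (ℓ * q) := ⟨Nat.mul_ne_zero (NeZero.ne ℓ) (NeZero.ne q)⟩
  change qExpand Qb q (qExpand Qb ℓ f) = qExpand Qb ℓ (qExpand Qb q f)
  rw [qExpand_qExpand, qExpand_qExpand]
  have key : ∀ (a b : ℕ) [NeZero a] [NeZero b], a = b → qExpand Qb a f = qExpand Qb b f := by
    intro a b _ _ h
    subst h
    rfl
  exact key _ _ (mul_comm q ℓ)

theorem w_heckeF' (hq : q.Prime) (hqM : ¬ q ∣ M) {w : FF (M * q) →ₐ[Qb] FF (M * q)}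
    (hw : IsAL M q w) (hℓ : ℓ.Prime) (hℓN : ¬ ℓ ∣ M * q) (f : FF (M * q)) :
    w (heckeF (M * q) ℓ hℓ hℓN f) = heckeF (M * q) ℓ hℓ hℓN (w f) := by
  have hℓq : ℓ ≠ q := fun h => hℓN (h ▸ dvd_mul_left _ _)
  have hqMℓ : ¬ q ∣ M * ℓ := by
    intro h
    rcases (Nat.Prime.dvd_mul hq).1 h with h | h
    · exact hqM h
    · exact hℓq ((Nat.prime_dvd_prime_iff_eq hq hℓ).1 h).symm
  obtain ⟨w2, hinv2, hw2⟩ := exists_w2 (M * ℓ) q (M * q * ℓ) hq hqMℓ (by ring)
  -- `w2 ∘ α_ℓ = α_ℓ ∘ w`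
  have hA : ∀ x : FF (M * q), w2 (heckeAlphaBar Qb (M * q) ℓ x) = heckeAlphaBar Qb (M * q) ℓ (w x) := by
    intro x
    refine induction_gen hq (fun x => w2 (heckeAlphaBar Qb (M * q) ℓ x)
      = heckeAlphaBar Qb (M * q) ℓ (w x)) ?_ ?_ ?_ ?_ ?_ ?_ x
    · intro c
      rw [AlgHom.commutes, AlgHom.commutes, AlgHom.commutes, AlgHom.commutes]
    · intro f
      apply Subtype.ext
      rw [(hw2 (heckeAlphaBar Qb M ℓ f) _).1 (by
        simp only [coe_heckeAlphaBar]), hw.alpha]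
      simp only [coe_heckeAlphaBar, coe_heckeBetaBar]
    · intro f
      apply Subtype.ext
      rw [(hw2 (heckeAlphaBar Qb M ℓ f) _).2 (by
        simp only [coe_heckeAlphaBar, coe_heckeBetaBar]), hw.beta]
      simp only [coe_heckeAlphaBar]
    · intro x y hx hy
      rw [map_add, map_add, map_add, map_add, hx, hy]
    · intro x y hx hy
      rw [map_mul, map_mul, map_mul, map_mul, hx, hy]
    · intro x hx
      rw [map_inv₀, map_inv₀, map_inv₀, map_inv₀, hx]
  -- `w2 ∘ β_ℓ = β_ℓ ∘ w`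
  have hB : ∀ x : FF (M * q), w2 (heckeBetaBar Qb (M * q) ℓ x) = heckeBetaBar Qb (M * q) ℓ (w x) := by
    intro x
    refine induction_gen hq (fun x => w2 (heckeBetaBar Qb (M * q) ℓ x)
      = heckeBetaBar Qb (M * q) ℓ (w x)) ?_ ?_ ?_ ?_ ?_ ?_ x
    · intro c
      rw [AlgHom.commutes, AlgHom.commutes, AlgHom.commutes, AlgHom.commutes]
    · intro f
      apply Subtype.ext
      rw [(hw2 (heckeBetaBar Qb M ℓ f) _).1 (by
        simp only [coe_heckeAlphaBar, coe_heckeBetaBar]), hw.alpha]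
      simp only [coe_heckeBetaBar]
      exact Vq_comm _
    · intro f
      apply Subtype.ext
      rw [(hw2 (heckeBetaBar Qb M ℓ f) _).2 (by
        simp only [coe_heckeBetaBar]
        exact (Vq_comm _).symm), hw.beta]
      simp only [coe_heckeAlphaBar, coe_heckeBetaBar]
    · intro x y hx hy
      rw [map_add, map_add, map_add, map_add, hx, hy]
    · intro x y hx hy
      rw [map_mul, map_mul, map_mul, map_mul, hx, hy]
    · intro x hx
      rw [map_inv₀, map_inv₀, map_inv₀, map_inv₀, hx]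
  -- the norm
  have hN : ∀ g : FF (M * q), heckeF (M * q) ℓ hℓ hℓN g = heckeNorm (M * q) ℓ g := fun g =>
    Subtype.ext (heckeSer_eq_heckeNorm (M * q) ℓ hℓ hℓN g)
  rw [hN, hN]
  letI := algebraAlong (heckeAlphaBar Qb (M * q) ℓ)
  let e₁ : FF (M * q) ≃+* FF (M * q) :=
    { toFun := w, invFun := w, left_inv := fun x => hw.invol hq x,
      right_inv := fun x => hw.invol hq x, map_mul' := map_mul w, map_add' := map_add w }
  let e₂ : FF (M * q * ℓ) ≃+* FF (M * q * ℓ) :=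
    { toFun := w2, invFun := w2, left_inv := fun x => hinv2 x,
      right_inv := fun x => hinv2 x, map_mul' := map_mul w2, map_add' := map_add w2 }
  have key := Algebra.norm_eq_of_equiv_equiv e₁ e₂ (RingHom.ext fun x => (hA x).symm)
    (heckeBetaBar Qb (M * q) ℓ f)
  have h1 : heckeNorm (M * q) ℓ f = Algebra.norm (FF (M * q)) (heckeBetaBar Qb (M * q) ℓ f) := rfl
  have h2 : heckeNorm (M * q) ℓ (w f)
      = Algebra.norm (FF (M * q)) (heckeBetaBar Qb (M * q) ℓ (w f)) := rfl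
  rw [h1, h2, key]
  have h3 : e₂ (heckeBetaBar Qb (M * q) ℓ f) = heckeBetaBar Qb (M * q) ℓ (w f) := hB f
  rw [h3]
  exact hw.invol hq _

end

end Fermat.Agent.S43.QF.WT2
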